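/-
P-S19 (helper74): Galois descent of linear independence for equivariant function families
(Artin-style minimal-support argument; Mathlib only).
-/
import Mathlib

set_option autoImplicit false

namespace Fermat.Agent.S19x.FF.GaloisIndep

variable {K Ω : Type*} [Field K] [Field Ω] [Algebra K Ω]

/-- **Galois descent of linear independence.** `Ω / K` a field extension whose automorphism group
has fixed field `K`; `Z` a set on which the automorphisms act; a family of equivariant functions
`Z → Ω` which is linearly independent over `K` is linearly independent over `Ω`. -/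
theorem linearIndependent_of_equivariant
    (hfix : ∀ ω : Ω, (∀ σ : Ω ≃ₐ[K] Ω, σ ω = ω) → ω ∈ Set.range (algebraMap K Ω))
    {ι Z : Type*} (act : (Ω ≃ₐ[K] Ω) → Z → Z) (hact : ∀ σ z, act σ (act σ⁻¹ z) = z)
    (f : ι → Z → Ω) (hf : ∀ i σ z, f i (act σ z) = σ (f i z))
    (hK : LinearIndependent K f) : LinearIndependent Ω f := by
  classical
  rw [linearIndependent_iff']
  intro s
  induction s using Finset.strongInduction with
  | H s ih =>
    intro g hg i0 hi0
    by_contra hne
    obtain ⟨g', hg'def⟩ : ∃ g' : ι → Ω, ∀ i, g' i = (g i0)⁻¹ * g i := ⟨_, fun _ => rfl⟩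
    have hg' : ∑ i ∈ s, g' i • f i = 0 := by
      have : ∑ i ∈ s, g' i • f i = (g i0)⁻¹ • ∑ i ∈ s, g i • f i := by
        rw [Finset.smul_sum]
        refine Finset.sum_congr rfl fun i _ => ?_
        rw [smul_smul, hg'def]
      rw [this, hg, smul_zero]
    have hg'0 : g' i0 = 1 := by rw [hg'def]; exact inv_mul_cancel₀ hne
    have hconj : ∀ σ : Ω ≃ₐ[K] Ω, ∑ i ∈ s, σ (g' i) • f i = 0 := by
      intro σ
      funext z
      have h1 := congrFun hg' (act σ⁻¹ z)
      simp only [Finset.sum_apply, Pi.smul_apply, smul_eq_mul, Pi.zero_apply] at h1 ⊢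
      have h2 := congrArg σ h1
      rw [map_sum, map_zero] at h2
      rw [← h2]
      refine Finset.sum_congr rfl fun i _ => ?_
      rw [map_mul, ← hf i σ, hact]
    have hfixed : ∀ σ : Ω ≃ₐ[K] Ω, ∀ i ∈ s, σ (g' i) = g' i := by
      intro σ i hi
      by_cases hii : i = i0
      · rw [hii, hg'0, map_one]
      have hrel : ∑ j ∈ s.erase i0, (σ (g' j) - g' j) • f j = 0 := by
        have hall : ∑ j ∈ s, (σ (g' j) - g' j) • f j = 0 := by
          simp only [sub_smul, Finset.sum_sub_distrib, hconj σ, hg', sub_zero]
        rw [← Finset.add_sum_erase s _ hi0, hg'0, map_one, sub_self, zero_smul, zero_add] at hall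
        exact hall
      have := ih (s.erase i0) (Finset.erase_ssubset hi0) (fun j => σ (g' j) - g' j) hrel i
        (Finset.mem_erase.mpr ⟨hii, hi⟩)
      exact sub_eq_zero.mp this
    have hex : ∀ i, ∃ k : K, i ∈ s → algebraMap K Ω k = g' i := by
      intro i
      by_cases hi : i ∈ s
      · obtain ⟨k, hk⟩ := hfix (g' i) (fun σ => hfixed σ i hi)
        exact ⟨k, fun _ => hk⟩
      · exact ⟨0, fun h => absurd h hi⟩
    choose k hk using hex
    have hKrel : ∑ i ∈ s, k i • f i = 0 := by
      rw [← hg']
      refine Finset.sum_congr rfl fun i hi => ?_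
      rw [← hk i hi]
      funext z
      simp [Algebra.smul_def]
    have h0 := (linearIndependent_iff'.mp hK) s k hKrel i0 hi0
    have h1 := hk i0 hi0
    rw [h0, map_zero, hg'0] at h1
    exact zero_ne_one h1

end Fermat.Agent.S19x.FF.GaloisIndep
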