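/-
P-S19, block (C) (helper16): quotients of finite flat group schemes, function-level core.

`H` a cocommutative Hopf algebra over a PID `O`, finite and free; `B = Ω` an algebraically closed
field of characteristic zero containing `O`; `T₂` a finite subgroup of the group of `Ω`-points.
`H' = UnrQuot.invFun T₂` (the `T₂`-translation invariant functions) is
* a subalgebra, stable under the antipode (`invAlg`, `antipode_mem_invFun`);
* a direct summand on which the comultiplication closes up: `comul h = (π ⊗ π) (comul h)` for a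
  projection `π` onto `H'` (`map_proj_comul`).
-/
import Mathlib
import Fermat.Agent.S56x.Fontaine.UnrQuotGalois

set_option autoImplicit false
set_option linter.unusedSectionVars false
set_option linter.style.longLine false

noncomputable section

namespace Fermat.Agent.S19x.FF.QuotientCore

open TensorProduct WithConv Coalgebra
open Fermat.Agent.S56x.Hopf Fermat.Agent.S56x.Fontaine.UnrQuot

universe u v w

variable {O : Type u} {H : Type v} {B : Type w}
  [CommRing O] [CommRing H] [HopfAlgebra O H] [Coalgebra.IsCocomm O H]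
  [CommRing B] [Algebra O B]

/-! ### `invFun T₂` is a subalgebra stable under the antipode -/

theorem one_mem_invFun (T₂ : Submonoid (Pts O H B)) : (1 : H) ∈ invFun T₂ := by
  intro x t _
  rw [map_one, map_one]

theorem mul_mem_invFun (T₂ : Submonoid (Pts O H B)) {a b : H} (ha : a ∈ invFun T₂)
    (hb : b ∈ invFun T₂) : a * b ∈ invFun T₂ := by
  intro x t ht
  rw [map_mul, map_mul, ha x t ht, hb x t ht]

theorem algebraMap_mem_invFun (T₂ : Submonoid (Pts O H B)) (r : O) :
    algebraMap O H r ∈ invFun T₂ := by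
  rw [Algebra.algebraMap_eq_smul_one]
  exact (invFun T₂).smul_mem r (one_mem_invFun T₂)

/-- the subalgebra of `T₂`-invariant functions. -/
def invAlg (T₂ : Submonoid (Pts O H B)) : Subalgebra O H where
  carrier := {h | h ∈ invFun T₂}
  mul_mem' := fun ha hb => mul_mem_invFun T₂ ha hb
  one_mem' := one_mem_invFun T₂
  add_mem' := fun ha hb => (invFun T₂).add_mem ha hb
  zero_mem' := (invFun T₂).zero_mem
  algebraMap_mem' := algebraMap_mem_invFun T₂

theorem mem_invAlg {T₂ : Submonoid (Pts O H B)} {h : H} : h ∈ invAlg T₂ ↔ h ∈ invFun T₂ :=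
  Iff.rfl

theorem ptsInv_apply (g : Pts O H B) (h : H) : ptsInv g h = g (HopfAlgebra.antipode O h) := rfl

theorem ptsInv_mul (x y : Pts O H B) : ptsInv (x * y) = ptsInv x * ptsInv y := by
  have h1 : (x * y) * (ptsInv x * ptsInv y) = 1 := by
    calc (x * y) * (ptsInv x * ptsInv y) = (x * ptsInv x) * (y * ptsInv y) := by
          rw [mul_mul_mul_comm]
      _ = 1 := by rw [mul_ptsInv_cancel, mul_ptsInv_cancel, one_mul]
  calc ptsInv (x * y) = ptsInv (x * y) * ((x * y) * (ptsInv x * ptsInv y)) := by
        rw [h1, mul_one]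
    _ = (ptsInv (x * y) * (x * y)) * (ptsInv x * ptsInv y) := by
        rw [mul_assoc (ptsInv (x * y)) (x * y)]
    _ = ptsInv x * ptsInv y := by rw [ptsInv_mul_cancel, one_mul]

theorem antipode_mem_invFun (T₂ : Submonoid (Pts O H B)) (hinv : ∀ t ∈ T₂, ptsInv t ∈ T₂)
    {h : H} (hh : h ∈ invFun T₂) : HopfAlgebra.antipode O h ∈ invFun T₂ := by
  intro x t ht
  rw [← ptsInv_apply, ← ptsInv_apply, ptsInv_mul]
  exact hh (ptsInv x) (ptsInv t) (hinv t ht)

/-! ### The comultiplication closes up on a direct summand which is a left coideal -/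

/-- if `H'` is a left coideal and `π` is a projection onto `H'`, then `(π ⊗ π) (Δ h) = Δ h` for
`h ∈ H'` (uses cocommutativity). -/
theorem map_proj_comul {H' : Submodule O H} (hco : IsLeftCoideal H')
    (π : H →ₗ[O] H) (hπid : ∀ h ∈ H', π h = h) {h : H} (hh : h ∈ H') :
    TensorProduct.map π π (comul (R := O) h) = comul (R := O) h := by
  obtain ⟨n, 𝓡, h𝓡⟩ := hco h hh
  have hr : π.rTensor H (comul (R := O) h) = comul (R := O) h := by
    rw [← 𝓡.eq, map_sum]
    refine Finset.sum_congr rfl fun i hi => ?_
    rw [LinearMap.rTensor_tmul, hπid _ (h𝓡 i hi)]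
  have hl : π.lTensor H (comul (R := O) h) = comul (R := O) h := by
    have h2 : comul (R := O) h = ∑ i ∈ 𝓡.index, 𝓡.right i ⊗ₜ[O] 𝓡.left i := by
      rw [← Coalgebra.comm_comul (R := O) h, ← 𝓡.eq, map_sum]
      refine Finset.sum_congr rfl fun i _ => ?_
      rw [TensorProduct.comm_tmul]
    rw [h2, map_sum]
    refine Finset.sum_congr rfl fun i hi => ?_
    rw [LinearMap.lTensor_tmul, hπid _ (h𝓡 i hi)]
  have hmap : TensorProduct.map π π = (π.rTensor H) ∘ₗ (π.lTensor H) := by
    rw [LinearMap.rTensor_comp_lTensor]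
  rw [hmap, LinearMap.comp_apply, hl, hr]

end Fermat.Agent.S19x.FF.QuotientCore
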