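/-
P-S19 (helper74): ring-theoretic facts on `ℤ_(p) = GaloisRep.ratLocalizedAt p ⊆ ℚ` (any `p : ℕ`):
it is a principal ideal domain with fraction field `ℚ`.
-/
import Mathlib
import Fermat.Prelude.Def_GaloisRep_Flat

set_option autoImplicit false

namespace Fermat.Agent.S19x.FF.RatLoc

open GaloisRep

variable (p : ℕ)

theorem natCast_mem (n : ℕ) : (n : ℚ) ∈ ratLocalizedAt p := by
  show ((n : ℚ)).den.Coprime p
  simp

theorem intCast_mem (n : ℤ) : (n : ℚ) ∈ ratLocalizedAt p := by
  show ((n : ℚ)).den.Coprime p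
  simp

theorem inv_den_mem {q : ℚ} (hq : q ∈ ratLocalizedAt p) : ((q.den : ℚ))⁻¹ ∈ ratLocalizedAt p := by
  show (((q.den : ℚ))⁻¹).den.Coprime p
  rw [Rat.inv_natCast_den_of_pos q.den_pos]
  exact hq

/-- `x = num x * (den x)⁻¹` with both factors in the ring. -/
theorem eq_num_mul_inv_den (x : ratLocalizedAt p) :
    x = (⟨(x.1.num : ℚ), intCast_mem p _⟩ : ratLocalizedAt p) *
      ⟨((x.1.den : ℚ))⁻¹, inv_den_mem p x.2⟩ := by
  apply Subtype.ext
  show (x : ℚ) = (x.1.num : ℚ) * ((x.1.den : ℚ))⁻¹
  rw [← div_eq_mul_inv, Rat.num_div_den]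

/-- `ℤ_(p)` is a principal ideal ring. -/
instance isPrincipalIdealRing : IsPrincipalIdealRing (ratLocalizedAt p) where
  principal I := by
    let J : Ideal ℤ := I.comap (Int.castRingHom (ratLocalizedAt p))
    obtain ⟨g, hg⟩ := (IsPrincipalIdealRing.principal J).principal
    refine ⟨⟨((g : ℤ) : ratLocalizedAt p), ?_⟩⟩
    apply le_antisymm
    · intro x hx
      have hnum : (x.1.num : ratLocalizedAt p) ∈ I := by
        have h1 : (x.1.num : ratLocalizedAt p) = x * ((x.1.den : ℕ) : ratLocalizedAt p) := by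
          apply Subtype.ext
          push_cast
          show ((x.1.num : ℚ)) = (x : ℚ) * (x.1.den : ℚ)
          rw [Rat.mul_den_eq_num]
        rw [h1]
        exact I.mul_mem_right _ hx
      have hJ : x.1.num ∈ J := hnum
      rw [hg, Submodule.mem_span_singleton] at hJ
      obtain ⟨m, hm⟩ := hJ
      rw [Submodule.mem_span_singleton]
      refine ⟨(m : ratLocalizedAt p) * ⟨((x.1.den : ℚ))⁻¹, inv_den_mem p x.2⟩, ?_⟩
      conv_rhs => rw [eq_num_mul_inv_den p x]
      have : (⟨(x.1.num : ℚ), intCast_mem p _⟩ : ratLocalizedAt p) =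
          (m : ratLocalizedAt p) * (g : ratLocalizedAt p) := by
        apply Subtype.ext
        rw [← hm]
        push_cast
        simp
      rw [this, smul_eq_mul]
      ring
    · rw [Submodule.span_singleton_le_iff_mem]
      have : g ∈ J := by rw [hg]; exact Submodule.mem_span_singleton_self g
      exact this

/-- `ℚ` is the fraction field of `ℤ_(p)`. -/
instance isFractionRing : IsFractionRing (ratLocalizedAt p) ℚ := by
  rw [IsFractionRing, isLocalization_iff]
  refine ⟨?_, ?_, ?_⟩
  · rintro ⟨y, hy⟩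
    refine IsUnit.mk0 _ ?_
    have := nonZeroDivisors.ne_zero hy
    intro h0
    apply this
    exact Subtype.ext h0
  · intro q
    have hden : (⟨(q.den : ℚ), natCast_mem p _⟩ : ratLocalizedAt p) ∈
        nonZeroDivisors (ratLocalizedAt p) := by
      rw [mem_nonZeroDivisors_iff_ne_zero]
      intro h0
      have := congrArg Subtype.val h0
      simp at this
    refine ⟨(⟨(q.num : ℚ), intCast_mem p _⟩, ⟨⟨(q.den : ℚ), natCast_mem p _⟩, hden⟩), ?_⟩
    show q * (q.den : ℚ) = (q.num : ℚ)
    exact Rat.mul_den_eq_num q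
  · intro x y hxy
    refine ⟨1, ?_⟩
    have : x = y := Subtype.ext hxy
    rw [this]

/-- the structure map `ℤ_(p) → ℚ̄` is injective. -/
theorem algebraMap_injective :
    Function.Injective (algebraMap (ratLocalizedAt p) (AlgebraicClosure ℚ)) := by
  intro x y hxy
  apply Subtype.ext
  exact (algebraMap ℚ (AlgebraicClosure ℚ)).injective hxy

end Fermat.Agent.S19x.FF.RatLoc
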