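/-
P-S19, block (C), leaf C2 (helper16): `IsFFPoints` passes to quotients by Galois stable subgroups.

If `X` (with the `G_ℚ`-action `act`) is the group of `ℚ̄`-points of a finite flat commutative group
scheme over `ℤ_(p)` and `Y ≤ X` is a `G_ℚ`-stable subgroup, then so is `X ⧸ Y`: the Hopf algebra of
the quotient is the algebra of `Y`-translation invariant functions.
-/
import Mathlib
import Fermat.Agent.S19x.FF.QuotientCore
import Fermat.Agent.S19x.FF.RatLoc
import Fermat.Agent.S19x.FF.GaloisIndep
import Fermat.Agent.S19x.HopfOrderFF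
import Fermat.Agent.S56x.Fontaine.PointsRational

set_option autoImplicit false
set_option linter.unusedSectionVars false
set_option linter.style.longLine false
set_option linter.style.haveILetI false

noncomputable section

namespace Fermat.Agent.S19x.FF.OfQuotient

open TensorProduct WithConv Coalgebra
open Fermat.Agent.S56x.Hopf Fermat.Agent.S56x.Fontaine.UnrQuot Fermat.Agent.S19x.FF.QuotientCore
open Fermat.Agent.S19x.Alg.FunOrder

universe u v w

section Generic

variable {O : Type u} {H : Type v} {B : Type w}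
  [CommRing O] [CommRing H] [HopfAlgebra O H] [Coalgebra.IsCocomm O H]
  [CommRing B] [Algebra O B]
  {Q : Type*} [AddCommGroup Q]

/-- the product of two points evaluated through an arbitrary representation of `comul h`. -/
theorem pts_mul_apply_repr {ι : Type*} (x y : Pts O H B) {h : H} (𝓡 : Coalgebra.Repr O h ι) :
    (x * y) h = ∑ i ∈ 𝓡.index, x (𝓡.left i) * y (𝓡.right i) := by
  have h1 : (x * y) h = (ptsHom x * ptsHom y) h := by
    rw [← map_mul]; rfl
  rw [h1, 𝓡.convMul_apply]
  rfl

/-- `q` is a surjective homomorphism from the group of points onto `Q` with kernel `T₂`. -/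
structure IsQuotMap (T₂ : Submonoid (Pts O H B)) (q : Pts O H B → Q) : Prop where
  surj : Function.Surjective q
  map_mul : ∀ x y, q (x * y) = q x + q y
  ker : ∀ x, q x = 0 ↔ x ∈ T₂

namespace IsQuotMap

variable {T₂ : Submonoid (Pts O H B)} {q : Pts O H B → Q} (hq : IsQuotMap T₂ q)
include hq

theorem map_one : q 1 = 0 := by
  have := hq.map_mul 1 1
  rw [mul_one] at this
  exact left_eq_add.mp this

theorem map_ptsInv (x : Pts O H B) : q (ptsInv x) = - q x := by
  have := hq.map_mul x (ptsInv x)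
  rw [mul_ptsInv_cancel, hq.map_one] at this
  exact (neg_eq_of_add_eq_zero_right this.symm).symm

theorem ptsInv_mem {t : Pts O H B} (ht : t ∈ T₂) : ptsInv t ∈ T₂ := by
  rw [← hq.ker, hq.map_ptsInv, (hq.ker t).2 ht, neg_zero]

theorem exists_mul_of_eq {x x' : Pts O H B} (h : q x = q x') : ∃ t ∈ T₂, x' = x * t := by
  refine ⟨ptsInv x * x', ?_, ?_⟩
  · rw [← hq.ker, hq.map_mul, hq.map_ptsInv, h, neg_add_cancel]
  · rw [← mul_assoc, mul_ptsInv_cancel, one_mul]

end IsQuotMap

/-- evaluation of the functions in `H` at chosen representatives of the classes in `Q`. -/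
def ev {q : Pts O H B → Q} (hs : Function.Surjective q) : H →ₐ[O] (Q → B) :=
  AlgHom.pi (fun z : Q => (Function.surjInv hs z).ofConv)

theorem ev_apply {q : Pts O H B → Q} (hs : Function.Surjective q) (a : H) (z : Q) :
    ev hs a z = (Function.surjInv hs z) a := rfl

/-- on the invariant functions the evaluation does not depend on the representatives. -/
theorem ev_eq {T₂ : Submonoid (Pts O H B)} {q : Pts O H B → Q} (hq : IsQuotMap T₂ q) {a : H}
    (ha : a ∈ invFun T₂) (x : Pts O H B) : ev hq.surj a (q x) = x a := by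
  rw [ev_apply]
  obtain ⟨t, ht, hxt⟩ := hq.exists_mul_of_eq (Function.surjInv_eq hq.surj (q x)).symm
  rw [hxt]
  exact ha x t ht

/-- the algebra of functions on `Q` cut out by the invariant functions. -/
def quotOrder {T₂ : Submonoid (Pts O H B)} {q : Pts O H B → Q} (hq : IsQuotMap T₂ q) :
    Subalgebra O (Q → B) :=
  (invAlg T₂).map (ev hq.surj)

theorem mem_quotOrder {T₂ : Submonoid (Pts O H B)} {q : Pts O H B → Q} (hq : IsQuotMap T₂ q)
    {f : Q → B} : f ∈ quotOrder hq ↔ ∃ a ∈ invFun T₂, ev hq.surj a = f := Iff.rfl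

theorem ev_mem_quotOrder {T₂ : Submonoid (Pts O H B)} {q : Pts O H B → Q} (hq : IsQuotMap T₂ q)
    {a : H} (ha : a ∈ invFun T₂) : ev hq.surj a ∈ quotOrder hq := ⟨a, ha, rfl⟩

/-! ### The invariant functions form a function-level Hopf order on the quotient -/

section HopfOrder

variable [IsDomain O] [IsPrincipalIdealRing O] [Module.Finite O H] [IsDomain B]

/-- an invariant function has a representation of its comultiplication with all legs invariant. -/
theorem exists_repr_invFun (hinj : Function.Injective (algebraMap O B)) {n : ℕ}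
    (b : Module.Basis (Fin n) O H)
    (hsep : ∀ d : Fin n → B, (∀ y : Pts O H B, ∑ i, d i * y (b i) = 0) → d = 0)
    (T₂ : Submonoid (Pts O H B)) {a : H} (ha : a ∈ invFun T₂) :
    ∃ 𝓡 : Coalgebra.Repr O a (Fin n),
      ∀ i ∈ 𝓡.index, 𝓡.left i ∈ invFun T₂ ∧ 𝓡.right i ∈ invFun T₂ := by
  obtain ⟨π, hπ, hπid⟩ := exists_proj_invFun hinj T₂
  have hco := isLeftCoideal_invFun b hsep T₂
  refine ⟨{ index := Finset.univ
            left := fun i => π (leftCoeff b i (comul a))
            right := fun i => π (b i)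
            eq := ?_ }, fun i _ => ⟨hπ _, hπ _⟩⟩
  have h1 := map_proj_comul hco π hπid ha
  have h2 := congrArg (TensorProduct.map π π) (sum_leftCoeff_tmul b (comul (R := O) a))
  rw [h1, map_sum] at h2
  simpa only [TensorProduct.map_tmul] using h2

theorem isFunHopfOrder_quotOrder (hinj : Function.Injective (algebraMap O B)) {n : ℕ}
    (b : Module.Basis (Fin n) O H)
    (hsep : ∀ d : Fin n → B, (∀ y : Pts O H B, ∑ i, d i * y (b i) = 0) → d = 0)
    {T₂ : Submonoid (Pts O H B)} {q : Pts O H B → Q} (hq : IsQuotMap T₂ q) :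
    IsFunHopfOrder (quotOrder hq) := by
  refine ⟨isDeltaClosed_iff.2 ?_, isCounitClosed_iff.2 ?_, isAntipodeClosed_iff.2 ?_⟩
  · intro f hf
    obtain ⟨a, ha, rfl⟩ := (mem_quotOrder hq).1 hf
    obtain ⟨𝓡, h𝓡⟩ := exists_repr_invFun hinj b hsep T₂ ha
    rw [mem_boxProd_iff]
    have hsum : (fun st : Q × Q => ev hq.surj a (st.1 + st.2)) =
        ∑ i ∈ 𝓡.index, (fun st : Q × Q => ev hq.surj (𝓡.left i) st.1 *
          ev hq.surj (𝓡.right i) st.2) := by
      funext ⟨s, t⟩
      obtain ⟨x, rfl⟩ := hq.surj s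
      obtain ⟨y, rfl⟩ := hq.surj t
      rw [Finset.sum_apply]
      simp only
      rw [← hq.map_mul, ev_eq hq ha, pts_mul_apply_repr x y 𝓡]
      refine Finset.sum_congr rfl fun i hi => ?_
      rw [ev_eq hq (h𝓡 i hi).1, ev_eq hq (h𝓡 i hi).2]
    rw [hsum]
    refine Submodule.sum_mem _ fun i hi => Submodule.subset_span ?_
    exact ⟨_, ev_mem_quotOrder hq (h𝓡 i hi).1, _, ev_mem_quotOrder hq (h𝓡 i hi).2, rfl⟩
  · intro f hf
    obtain ⟨a, ha, rfl⟩ := (mem_quotOrder hq).1 hf
    refine ⟨counit (R := O) a, ?_⟩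
    rw [← hq.map_one, ev_eq hq ha]
    rfl
  · intro f hf
    obtain ⟨a, ha, rfl⟩ := (mem_quotOrder hq).1 hf
    have hS := antipode_mem_invFun T₂ (fun t ht => hq.ptsInv_mem ht) ha
    refine (mem_quotOrder hq).2 ⟨HopfAlgebra.antipode O a, hS, ?_⟩
    funext s
    obtain ⟨x, rfl⟩ := hq.surj s
    rw [ev_eq hq hS, ← hq.map_ptsInv, ev_eq hq ha]
    rfl

end HopfOrder

/-! ### The invariant functions separate the points of the quotient -/

section Separation

variable [IsDomain O] [IsPrincipalIdealRing O] [Module.Finite O H] [IsDomain B]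

/-- two points which agree on the invariant functions have the same image in the quotient. -/
theorem eq_of_forall_invFun_eq (hinj : Function.Injective (algebraMap O B)) {n : ℕ}
    (b : Module.Basis (Fin n) O H)
    (hsep : ∀ d : Fin n → B, (∀ y : Pts O H B, ∑ i, d i * y (b i) = 0) → d = 0)
    {T₂ : Submonoid (Pts O H B)} [Fintype T₂] {q : Pts O H B → Q} (hq : IsQuotMap T₂ q)
    (htr : ∀ h : H, ∃ c : H, ∀ x : Pts O H B, x c = ∑ t : T₂, (x * (t : Pts O H B)) h)
    {x x' : Pts O H B} (hxx' : ∀ a ∈ invFun T₂, x a = x' a) : q x = q x' := by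
  have hinv : ∀ t ∈ T₂, ptsInv t ∈ T₂ := fun t ht => hq.ptsInv_mem ht
  have hg : x * ptsInv x' ∈ T₂ := by
    refine mem_of_eq_counit_on T₂ hinv htr _ (fun a ha => ?_)
    obtain ⟨𝓡, h𝓡⟩ := exists_repr_invFun hinj b hsep T₂ ha
    have h1 : (x * ptsInv x') a = (x * ptsInv x) a := by
      rw [pts_mul_apply_repr x (ptsInv x') 𝓡, pts_mul_apply_repr x (ptsInv x) 𝓡]
      refine Finset.sum_congr rfl fun i hi => ?_
      rw [ptsInv_apply, ptsInv_apply, hxx' _ (antipode_mem_invFun T₂ hinv (h𝓡 i hi).2)]
    rw [h1, mul_ptsInv_cancel]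
    rfl
  have h0 := (hq.ker _).2 hg
  rw [hq.map_mul, hq.map_ptsInv] at h0
  exact (neg_add_eq_zero.mp (by rw [add_comm]; exact h0)).symm

end Separation

end Generic

/-! ### Counting: Dedekind independence of the evaluations -/

section Count

/-- a free subalgebra of rank `r` of `Z → L` which separates the points of `Z` has `|Z| ≤ r`
(Dedekind independence of the evaluations). -/
theorem card_le_of_separates {O L Z : Type*} [CommRing O] [Field L] [Algebra O L] [Fintype Z]
    (S : Subalgebra O (Z → L)) {r : ℕ} (b' : Module.Basis (Fin r) O S)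
    (hS : ∀ z z' : Z, (∀ f ∈ S, f z = f z') → z = z') : Fintype.card Z ≤ r := by
  let evAt : Z → (S →ₐ[O] L) := fun z => (Pi.evalAlgHom O (fun _ : Z => L) z).comp S.val
  have hinj : Function.Injective evAt := by
    intro z z' h
    refine hS z z' fun f hf => ?_
    exact AlgHom.congr_fun h ⟨f, hf⟩
  have hli := (linearIndependent_toLinearMap O S L).comp evAt hinj
  have hli2 := hli.map' (b'.constr L).symm.toLinearMap (LinearEquiv.ker (b'.constr L).symm)
  have := hli2.fintype_card_le_finrank
  rwa [Module.finrank_fin_fun] at this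

theorem le_card_of_linearIndependent {L Z : Type*} [Field L] [Fintype Z] {r : ℕ}
    (f : Fin r → Z → L) (hli : LinearIndependent L f) : r ≤ Fintype.card Z := by
  have := hli.fintype_card_le_finrank
  rwa [Fintype.card_fin, Module.finrank_fintype_fun_eq_card] at this

/-- a subalgebra of a function algebra with values in a domain containing `O` is torsion free. -/
theorem isTorsionFree_subalgebra_fun {O L Z : Type*} [CommRing O] [IsDomain O] [CommRing L] [IsDomain L]
    [Algebra O L] (hinj : Function.Injective (algebraMap O L)) (S : Subalgebra O (Z → L)) :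
    Module.IsTorsionFree O S := by
  refine ⟨fun r hr f g hfg => ?_⟩
  apply Subtype.ext
  funext z
  have h1 : (r • (f : Z → L)) z = (r • (g : Z → L)) z := by
    have := congrArg (fun k : S => (k : Z → L) z) hfg
    simpa using this
  rw [Pi.smul_apply, Pi.smul_apply, Algebra.smul_def, Algebra.smul_def] at h1
  have hr' : algebraMap O L r ≠ 0 := by
    intro h0
    exact hr.ne_zero (hinj (by rw [h0, map_zero]))
  exact mul_left_cancel₀ hr' h1

end Count

/-! ### The case of `ℤ_(p)` and `ℚ̄` -/

section Specific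

open Fermat.Agent.S56x.Dict.FFPoints Fermat.Agent.S56x.Fontaine.PointsRational
open Fermat.Agent.S19x.FF

local notation "Γℚ" => (AlgebraicClosure ℚ ≃ₐ[ℚ] AlgebraicClosure ℚ)
local notation "Qb" => AlgebraicClosure ℚ
local notation "Zp" p => GaloisRep.ratLocalizedAt p

/-- an element of `ℚ̄` fixed by the whole Galois group is rational. -/
theorem exists_rat_of_fixed (c : Qb) (hfix : ∀ σ : Γℚ, σ c = c) :
    ∃ r : ℚ, algebraMap ℚ Qb r = c := by
  have : Algebra.IsAlgebraic ℚ Qb := AlgebraicClosure.isAlgebraic ℚ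
  have : IsAlgClosure ℚ Qb := ⟨inferInstance, inferInstance⟩
  have : IsGalois ℚ Qb := IsAlgClosure.isGalois ℚ Qb
  exact (InfiniteGalois.mem_range_algebraMap_iff_fixed (k := ℚ) (K := Qb) c).mpr hfix

/-- a Galois-fixed element of `ℚ̄` which is integral over `ℤ_(p)` lies in `ℤ_(p)`. -/
theorem exists_zp_of_fixed_of_isIntegral (p : ℕ) (c : Qb) (hfix : ∀ σ : Γℚ, σ c = c)
    (hint : IsIntegral (Zp p) c) : ∃ a : Zp p, algebraMap (Zp p) Qb a = c := by
  obtain ⟨r, rfl⟩ := exists_rat_of_fixed c hfix
  have h1 : IsIntegral (Zp p) r :=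
    (isIntegral_algebraMap_iff (algebraMap ℚ Qb).injective).1 hint
  obtain ⟨a, ha⟩ := IsIntegrallyClosed.isIntegral_iff.1 h1
  exact ⟨a, by rw [← ha]; rfl⟩

variable {p : ℕ} {H : Type} [CommRing H] [Algebra (Zp p) H]

/-- the Galois conjugate of a point. -/
def galPt (σ : Γℚ) (t : WithConv (H →ₐ[Zp p] Qb)) : WithConv (H →ₐ[Zp p] Qb) :=
  toConv ((((σ : Qb ≃ₐ[ℚ] Qb) : Qb →ₐ[ℚ] Qb).restrictScalars (Zp p)).comp t.ofConv)

theorem galPt_apply (σ : Γℚ) (t : WithConv (H →ₐ[Zp p] Qb)) (h : H) :
    galPt σ t h = σ (t h) := rfl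

theorem galPt_injective (σ : Γℚ) : Function.Injective (galPt (p := p) (H := H) σ) := by
  intro t t' htt'
  apply WithConv.ofConv_injective
  apply AlgHom.ext
  intro h
  have := congrArg (fun g : WithConv (H →ₐ[Zp p] Qb) => g h) htt'
  simp only [galPt_apply] at this
  exact σ.injective this

/-- **Quotients.** `IsFFPoints` passes to the quotient by a Galois stable subgroup. -/
theorem of_quotient {p : ℕ} [Fact p.Prime] {X : Type} [AddCommGroup X] {act : Γℚ → X → X}
    (h : IsFFPoints p X act) (Y : AddSubgroup X) (hY : ∀ σ, ∀ y ∈ Y, act σ y ∈ Y)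
    (actQ : Γℚ → X ⧸ Y → X ⧸ Y)
    (hQ : ∀ σ x, actQ σ (QuotientAddGroup.mk x) = QuotientAddGroup.mk (act σ x)) :
    IsFFPoints p (X ⧸ Y) actQ := by
  classical
  obtain ⟨H, i1, i2, hfin, hflat, hcoc, e, hadd, heq⟩ := h
  haveI := hfin
  haveI := hflat
  haveI := hcoc
  haveI : Module.Free (Zp p) H := Module.free_of_finite_type_torsion_free'
  let b := Module.finBasis (Zp p) H
  have hinj : Function.Injective (algebraMap (Zp p) Qb) := RatLoc.algebraMap_injective p
  have hsep := sep_of_isAlgClosed (L := Qb) b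
  have hact : ∀ (σ : Γℚ) (t : Pts (Zp p) H Qb), act σ (e t) = e (galPt σ t) := fun σ t =>
    (heq σ t (galPt σ t) (fun _ => rfl)).symm
  have he1 : e 1 = 0 := by
    have := hadd 1 1
    rw [mul_one] at this
    exact left_eq_add.mp this
  let T₂ : Submonoid (Pts (Zp p) H Qb) :=
    { carrier := {t | e t ∈ Y}
      one_mem' := by
        show e 1 ∈ Y
        rw [he1]
        exact Y.zero_mem
      mul_mem' := by
        intro s t hs ht
        show e (s * t) ∈ Y
        rw [hadd]
        exact Y.add_mem hs ht }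
  have hT₂ : ∀ t : Pts (Zp p) H Qb, t ∈ T₂ ↔ e t ∈ Y := fun _ => Iff.rfl
  let q : Pts (Zp p) H Qb → X ⧸ Y := fun t => QuotientAddGroup.mk (e t)
  have hq : IsQuotMap T₂ q :=
    { surj := fun z => by
        obtain ⟨x, rfl⟩ := QuotientAddGroup.mk_surjective z
        exact ⟨e.symm x, by simp [q]⟩
      map_mul := fun x y => by simp only [q, hadd, QuotientAddGroup.mk_add]
      ker := fun x => by simp only [q, QuotientAddGroup.eq_zero_iff, hT₂] }
  haveI : Finite (H →ₐ[Zp p] Qb) := finite_points
  haveI : Finite (Pts (Zp p) H Qb) :=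
    Finite.of_injective WithConv.ofConv WithConv.ofConv_injective
  haveI : Fintype T₂ := Fintype.ofFinite _
  haveI : Finite X := Finite.of_equiv _ e
  haveI : Fintype (X ⧸ Y) := Fintype.ofFinite _
  -- rationality of the sums over `T₂`
  have hsum : ∀ h : H, ∃ a : Zp p,
      ∑ t : T₂, (t : Pts (Zp p) H Qb) h = algebraMap (Zp p) Qb a := by
    intro h
    have hfix : ∀ σ : Γℚ, σ (∑ t : T₂, (t : Pts (Zp p) H Qb) h) =
        ∑ t : T₂, (t : Pts (Zp p) H Qb) h := by
      intro σ
      rw [map_sum]
      let φ : T₂ → T₂ := fun t => ⟨galPt σ t, by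
        rw [hT₂, ← hact]
        exact hY σ _ t.2⟩
      have hφ : Function.Injective φ := by
        intro t t' htt'
        exact Subtype.ext (galPt_injective σ (congrArg Subtype.val htt'))
      exact (Finite.injective_iff_bijective.1 hφ).sum_comp
        (fun t : T₂ => (t : Pts (Zp p) H Qb) h)
    have hint : IsIntegral (Zp p) (∑ t : T₂, (t : Pts (Zp p) H Qb) h) := by
      refine IsIntegral.sum _ fun t _ => ?_
      exact ((Algebra.IsIntegral.of_finite (Zp p) H).isIntegral h).map
        (t : Pts (Zp p) H Qb).ofConv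
    obtain ⟨a, ha⟩ := exists_zp_of_fixed_of_isIntegral p _ hfix hint
    exact ⟨a, ha.symm⟩
  have htr := htr_of_sum_mem b T₂ hsum
  -- the order of invariant functions
  have hS : IsFunHopfOrder (quotOrder hq) := isFunHopfOrder_quotOrder hinj b hsep hq
  haveI : Module.IsTorsionFree (Zp p) (quotOrder hq) := isTorsionFree_subalgebra_fun hinj _
  haveI : Module.Finite (Zp p) (quotOrder hq) := by
    have hfg : (Subalgebra.toSubmodule (quotOrder hq)).FG := by
      rw [quotOrder, Subalgebra.map_toSubmodule]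
      exact (IsNoetherian.noetherian _).map _
    exact Module.Finite.of_fg hfg
  haveI : Module.Free (Zp p) (quotOrder hq) := Module.free_of_finite_type_torsion_free'
  let b' := Module.finBasis (Zp p) (quotOrder hq)
  -- equivariance
  have hequiv : ∀ f ∈ quotOrder hq, ∀ (σ : Γℚ) (z : X ⧸ Y), f (actQ σ z) = σ (f z) := by
    intro f hf σ z
    obtain ⟨a, ha, rfl⟩ := (mem_quotOrder hq).1 hf
    obtain ⟨t, rfl⟩ := hq.surj z
    have h1 : actQ σ (q t) = q (galPt σ t) := by
      simp only [q]
      rw [hQ, hact]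
    rw [h1, ev_eq hq ha, ev_eq hq ha, galPt_apply]
  have hactQ : ∀ (σ : Γℚ) (z : X ⧸ Y), actQ σ (actQ σ⁻¹ z) = z := by
    intro σ z
    obtain ⟨t, rfl⟩ := hq.surj z
    have h1 : ∀ (τ : Γℚ) (t : Pts (Zp p) H Qb), actQ τ (q t) = q (galPt τ t) := by
      intro τ t
      simp only [q]
      rw [hQ, hact]
    rw [h1, h1]
    congr 1
    apply WithConv.ofConv_injective
    apply AlgHom.ext
    intro h
    show σ (σ⁻¹ (t h)) = t h
    exact AlgEquiv.apply_symm_apply σ _
  -- independence
  have hliR : LinearIndependent (Zp p) (fun i => ((b' i : quotOrder hq) : X ⧸ Y → Qb)) :=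
    b'.linearIndependent.map' (Subalgebra.val (quotOrder hq)).toLinearMap
      (LinearMap.ker_eq_bot.2 Subtype.val_injective)
  have hliQ : LinearIndependent ℚ (fun i => ((b' i : quotOrder hq) : X ⧸ Y → Qb)) :=
    LinearIndependent.localization ℚ (nonZeroDivisors (Zp p)) hliR
  have hli : LinearIndependent Qb (fun i => ((b' i : quotOrder hq) : X ⧸ Y → Qb)) :=
    GaloisIndep.linearIndependent_of_equivariant
      (fun ω hω => exists_rat_of_fixed ω hω) actQ hactQ _
      (fun i σ z => hequiv _ (b' i).2 σ z) hliQ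
  -- the rank
  have hcard : Fintype.card (Fin (Module.finrank (Zp p) (quotOrder hq))) = Nat.card (X ⧸ Y) := by
    rw [Fintype.card_fin, Nat.card_eq_fintype_card]
    refine le_antisymm (le_card_of_linearIndependent _ hli) (card_le_of_separates _ b' ?_)
    intro z z' hzz'
    obtain ⟨x, rfl⟩ := hq.surj z
    obtain ⟨x', rfl⟩ := hq.surj z'
    refine eq_of_forall_invFun_eq hinj b hsep hq htr fun a ha => ?_
    have := hzz' _ (ev_mem_quotOrder hq ha)
    rwa [ev_eq hq ha, ev_eq hq ha] at this
  exact HopfOrderFF.isFFPoints_of_funHopfOrder p actQ (quotOrder hq) hS b' hli hcard hequiv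

end Specific

end Fermat.Agent.S19x.FF.OfQuotient
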