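/-
P-S19, BLOCK C (helper12): function-level Hopf orders and the CONVERSE of helper57's
`HopfOrder.exists_hopfAlgebra`.

* `IsFunOrder p act Hf` : `Hf` is a `ℤ_(p)`-subalgebra of `X → ℚ̄` with a basis of `card X`
  elements which is `ℚ̄`-linearly independent, closed under `f ↦ f (s + t)`, `f ↦ f 0`,
  `f ↦ f (-t)`, consisting of Galois-equivariant functions.
* `IsFunOrder.isFFPoints` : such an order gives `IsFFPoints p X act`.
* `exists_isFunOrder` : conversely `IsFFPoints p X act` gives `Finite X` and such an order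
  (evaluation at the points; the points separate by Cartier's theorem `PointsSeparate`,
  Dedekind independence of the points, Galois descent of linear independence).
-/
import Mathlib
import Fermat.Agent.S56x.Dict.FFPoints
import Fermat.Agent.S56x.Flat.PointsSeparate
import Fermat.Agent.S56x.Hopf.GroupLike
import Fermat.Agent.S19x.HopfOrder
import Fermat.Agent.S19x.FF.GaloisIndep
import Fermat.Agent.S19x.FF.RatLoc

set_option autoImplicit false
set_option linter.style.haveILetI false
set_option linter.unusedSectionVars false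

noncomputable section

namespace Fermat.Agent.S19x.FF.FunDatum

open Fermat.Agent.S56x.Dict.FFPoints Fermat.Agent.S19x.HopfOrder WithConv

local notation "Γℚ" => (AlgebraicClosure ℚ ≃ₐ[ℚ] AlgebraicClosure ℚ)
local notation "Qb" => AlgebraicClosure ℚ
local notation "Zp" p => GaloisRep.ratLocalizedAt p

/-- a function-level Hopf order on the finite Galois module `X`. -/
structure IsFunOrder (p : ℕ) {X : Type} [AddCommGroup X] (act : Γℚ → X → X)
    (Hf : Subalgebra (Zp p) (X → Qb)) : Prop where
  basis : ∃ (n : ℕ) (b : Module.Basis (Fin n) (Zp p) Hf),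
      LinearIndependent Qb (fun i => ((b i : Hf) : X → Qb)) ∧ n = Nat.card X
  comul : ∀ f ∈ Hf, (fun st : X × X => f (st.1 + st.2)) ∈ Submodule.span (Zp p)
      {F : X × X → Qb | ∃ g ∈ Hf, ∃ h ∈ Hf, F = fun st => g st.1 * h st.2}
  counit : ∀ f ∈ Hf, ∃ r : Zp p, algebraMap (Zp p) Qb r = f 0
  antipode : ∀ f ∈ Hf, (fun t => f (-t)) ∈ Hf
  equivariant : ∀ f ∈ Hf, ∀ (σ : Γℚ) (x : X), f (act σ x) = σ (f x)

variable {p : ℕ} {X : Type} [AddCommGroup X] {act : Γℚ → X → X}

/-- a function-level Hopf order gives a finite flat group scheme with the given points. -/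
theorem IsFunOrder.isFFPoints [Finite X] {Hf : Subalgebra (Zp p) (X → Qb)}
    (h : IsFunOrder p act Hf) : IsFFPoints p X act := by
  obtain ⟨n, b, hli, hn⟩ := h.basis
  let D := Datum.ofSubalgebra Hf b hli (RatLoc.algebraMap_injective p) h.comul h.counit h.antipode
  have hcard : Fintype.card (Fin n) = Nat.card X := by simpa using hn
  obtain ⟨i2, hfin, hflat, hco, e, hadd, heq⟩ := exists_hopfAlgebra D hcard
    (fun (σ : Γℚ) (a : Qb) => σ a) act (fun σ a t => h.equivariant a a.2 σ t)
  exact ⟨Carrier Hf, inferInstance, i2, hfin, hflat, hco, e, hadd, heq⟩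


/-! ### The converse: from a finite flat Hopf algebra to a function-level order -/

section Converse

variable {H : Type} [CommRing H] [HopfAlgebra (Zp p) H]

/-- twisting a point by a Galois automorphism. -/
def twist (σ : Γℚ) (g : WithConv (H →ₐ[Zp p] Qb)) : WithConv (H →ₐ[Zp p] Qb) :=
  toConv (((σ : Qb →ₐ[ℚ] Qb).restrictScalars (Zp p)).comp g.ofConv)

@[simp] theorem twist_apply (σ : Γℚ) (g : WithConv (H →ₐ[Zp p] Qb)) (h : H) :
    (twist σ g).ofConv h = σ (g.ofConv h) := rfl

theorem twist_twist_inv (σ : Γℚ) (g : WithConv (H →ₐ[Zp p] Qb)) :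
    twist σ (twist σ⁻¹ g) = g := by
  apply WithConv.ofConv_injective
  ext h
  simp

variable (e : WithConv (H →ₐ[Zp p] Qb) ≃ X)
  (hadd : ∀ f g : WithConv (H →ₐ[Zp p] Qb), e (f * g) = e f + e g)
  (heq : ∀ (σ : Γℚ) (f g : WithConv (H →ₐ[Zp p] Qb)), (∀ h : H, g h = σ (f h)) → e g = act σ (e f))

include hadd in
theorem e_one : e 1 = 0 := by
  have := hadd 1 1
  rw [one_mul] at this
  exact (add_eq_left.mp this.symm)

include hadd in
theorem symm_zero : e.symm 0 = 1 := by
  rw [Equiv.symm_apply_eq, e_one e hadd]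

include hadd in
theorem symm_add (s t : X) : e.symm (s + t) = e.symm s * e.symm t := by
  rw [Equiv.symm_apply_eq, hadd, Equiv.apply_symm_apply, Equiv.apply_symm_apply]

include heq in
theorem symm_act (σ : Γℚ) (x : X) : e.symm (act σ x) = twist σ (e.symm x) := by
  rw [Equiv.symm_apply_eq, heq σ (e.symm x) (twist σ (e.symm x)) (fun h => rfl),
    Equiv.apply_symm_apply]

include heq in
theorem act_act_inv (σ : Γℚ) (x : X) : act σ (act σ⁻¹ x) = x := by
  apply e.symm.injective
  rw [symm_act e heq, symm_act e heq, twist_twist_inv]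

/-- the evaluation map of a Hopf algebra with points `X`. -/
def evalHom : H →ₐ[Zp p] (X → Qb) := AlgHom.pi (fun x => (e.symm x).ofConv)

@[simp] theorem evalHom_apply (h : H) (x : X) : evalHom e h x = (e.symm x).ofConv h := rfl

end Converse

section Converse2

variable {H : Type} [CommRing H] [HopfAlgebra (Zp p) H] [Module.Finite (Zp p) H]
  [Module.Flat (Zp p) H] [Coalgebra.IsCocomm (Zp p) H]
  (e : WithConv (H →ₐ[Zp p] Qb) ≃ X)
  (hadd : ∀ f g : WithConv (H →ₐ[Zp p] Qb), e (f * g) = e f + e g)
  (heq : ∀ (σ : Γℚ) (f g : WithConv (H →ₐ[Zp p] Qb)), (∀ h : H, g h = σ (f h)) → e g = act σ (e f))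

omit [Coalgebra.IsCocomm (Zp p) H] in
theorem evalHom_injective : Function.Injective (evalHom e) := by
  intro a b hab
  refine Fermat.Agent.S56x.Flat.PointsSeparate.eq_of_forall_point_eq ℚ Qb
    (IsFractionRing.injective (Zp p) ℚ) (fun g => ?_)
  have := congrFun hab (e (toConv g))
  simpa using this

include heq in
omit [Module.Finite (Zp p) H] [Module.Flat (Zp p) H] [Coalgebra.IsCocomm (Zp p) H] in
theorem evalHom_equivariant (h : H) (σ : Γℚ) (x : X) :
    evalHom e h (act σ x) = σ (evalHom e h x) := by
  rw [evalHom_apply, symm_act e heq, twist_apply, evalHom_apply]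

omit [Module.Finite (Zp p) H] [Module.Flat (Zp p) H] [Coalgebra.IsCocomm (Zp p) H] in
include hadd in
theorem evalHom_zero (h : H) :
    evalHom e h 0 = algebraMap (Zp p) Qb (Coalgebra.counit (R := Zp p) h) := by
  rw [evalHom_apply, symm_zero e hadd]
  rfl

include hadd in
omit [Module.Finite (Zp p) H] [Module.Flat (Zp p) H] in
theorem evalHom_neg (h : H) (t : X) :
    evalHom e h (-t) = evalHom e (HopfAlgebra.antipodeAlgHom (Zp p) H h) t := by
  have h1 : e.symm (-t) = Fermat.Agent.S56x.Hopf.ptsInv (e.symm t) := by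
    rw [Equiv.symm_apply_eq]
    have h2 := hadd (Fermat.Agent.S56x.Hopf.ptsInv (e.symm t)) (e.symm t)
    rw [Fermat.Agent.S56x.Hopf.ptsInv_mul_cancel, e_one e hadd, Equiv.apply_symm_apply] at h2
    exact (eq_neg_of_add_eq_zero_left h2.symm).symm
  rw [evalHom_apply, h1]
  rfl

include hadd in
omit [Module.Finite (Zp p) H] [Module.Flat (Zp p) H] [Coalgebra.IsCocomm (Zp p) H] in
theorem evalHom_add_mem (h : H) :
    (fun st : X × X => evalHom e h (st.1 + st.2)) ∈ Submodule.span (Zp p)
      {F : X × X → Qb | ∃ g ∈ (evalHom e).range, ∃ k ∈ (evalHom e).range,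
        F = fun st => g st.1 * k st.2} := by
  have key : ∀ z : TensorProduct (Zp p) H H,
      (fun st : X × X => Algebra.TensorProduct.lift (e.symm st.1).ofConv (e.symm st.2).ofConv
        (fun _ _ => Commute.all _ _) z) ∈ Submodule.span (Zp p)
      {F : X × X → Qb | ∃ g ∈ (evalHom e).range, ∃ k ∈ (evalHom e).range,
        F = fun st => g st.1 * k st.2} := by
    intro z
    induction z using TensorProduct.induction_on with
    | zero =>
      convert Submodule.zero_mem _ using 1
      funext st
      simp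
    | tmul a b =>
      refine Submodule.subset_span ⟨evalHom e a, ⟨a, rfl⟩, evalHom e b, ⟨b, rfl⟩, ?_⟩
      funext st
      simp
    | add z w hz hw =>
      convert Submodule.add_mem _ hz hw using 1
      funext st
      simp
  convert key (Coalgebra.comul (R := Zp p) h) using 1
  funext st
  rw [evalHom_apply, symm_add e hadd, AlgHom.convMul_apply]


omit [Module.Finite (Zp p) H] [Module.Flat (Zp p) H] [Coalgebra.IsCocomm (Zp p) H] in
/-- **Dedekind**: the points are linearly independent in `Hom(H, ℚ̄) ≃ ℚ̄ ^ n`. -/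
theorem linearIndependent_points {n : ℕ} (b : Module.Basis (Fin n) (Zp p) H) :
    LinearIndependent Qb (fun (x : X) (i : Fin n) => (e.symm x).ofConv (b i)) := by
  have h1 : LinearIndependent Qb
      (AlgHom.toLinearMap : (H →ₐ[Zp p] Qb) → H →ₗ[Zp p] Qb) :=
    linearIndependent_algHom_toLinearMap (Zp p) H Qb
  have h2 : LinearIndependent Qb (fun x : X => ((e.symm x).ofConv.toLinearMap : H →ₗ[Zp p] Qb)) :=
    h1.comp (fun x : X => (e.symm x).ofConv) (fun x y hxy => by
      have := WithConv.ofConv_injective hxy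
      exact e.symm.injective this)
  have h3 := h2.map' ((b.constr Qb).symm.toLinearMap) (LinearEquiv.ker _)
  have h4 : ((b.constr Qb).symm.toLinearMap ∘ fun x : X =>
      ((e.symm x).ofConv.toLinearMap : H →ₗ[Zp p] Qb)) =
      (fun (x : X) (i : Fin n) => (e.symm x).ofConv (b i)) := by
    funext x i
    simp [Module.Basis.constr_symm_apply]
  rw [h4] at h3
  exact h3

include heq in
omit [Coalgebra.IsCocomm (Zp p) H] in
theorem linearIndependent_evalHom {n : ℕ} (b : Module.Basis (Fin n) (Zp p) H) :
    LinearIndependent Qb (fun i => evalHom e (b i)) := by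
  have hinj := evalHom_injective e
  have hR : LinearIndependent (Zp p) (fun i => evalHom e (b i)) :=
    b.linearIndependent.map' (evalHom e).toLinearMap (LinearMap.ker_eq_bot.mpr hinj)
  have hQ : LinearIndependent ℚ (fun i => evalHom e (b i)) :=
    (LinearIndependent.iff_fractionRing (Zp p) ℚ).mp hR
  haveI : Algebra.IsAlgebraic ℚ Qb := AlgebraicClosure.isAlgebraic ℚ
  haveI : IsAlgClosure ℚ Qb := ⟨inferInstance, inferInstance⟩
  haveI : Normal ℚ Qb := IsAlgClosure.normal ℚ Qb
  haveI : IsGalois ℚ Qb := ⟨⟩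
  exact GaloisIndep.linearIndependent_of_equivariant (K := ℚ) (Ω := Qb)
    (fun ω hω => (InfiniteGalois.mem_range_algebraMap_iff_fixed ω).mpr hω) act
    (act_act_inv e heq) _ (fun i σ z => evalHom_equivariant e heq (b i) σ z) hQ

include heq in
omit [Coalgebra.IsCocomm (Zp p) H] in
theorem finite_and_card {n : ℕ} (b : Module.Basis (Fin n) (Zp p) H) :
    Finite X ∧ n = Nat.card X := by
  have h1 := linearIndependent_points e b
  haveI : Finite X := h1.finite
  refine ⟨inferInstance, ?_⟩
  haveI := Fintype.ofFinite X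
  have h2 : Fintype.card X ≤ n := by
    have := h1.fintype_card_le_finrank
    rwa [Module.finrank_fin_fun] at this
  have h3 : n ≤ Fintype.card X := by
    have := (linearIndependent_evalHom e heq b).fintype_card_le_finrank
    rwa [Module.finrank_fintype_fun_eq_card, Fintype.card_fin] at this
  rw [Nat.card_eq_fintype_card]
  omega

end Converse2

/-- **the converse**: a finite flat group scheme with points `X` gives a function-level Hopf
order on `X` (and `X` is finite). -/
theorem exists_isFunOrder (h : IsFFPoints p X act) :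
    Finite X ∧ ∃ Hf : Subalgebra (Zp p) (X → Qb), IsFunOrder p act Hf := by
  obtain ⟨H, i1, i2, hfin, hflat, hco, e, hadd, heq⟩ := h
  letI := i1
  letI := i2
  haveI := hfin
  haveI := hflat
  haveI := hco
  haveI : Module.IsTorsionFree (Zp p) H := Module.Flat.isTorsionFree
  haveI : Module.Free (Zp p) H := Module.free_of_finite_type_torsion_free'
  let b := Module.finBasis (Zp p) H
  obtain ⟨hX, hn⟩ := finite_and_card e heq b
  refine ⟨hX, (evalHom e).range, ?_, ?_, ?_, ?_, ?_⟩
  · -- basis
    have hinj := evalHom_injective e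
    let θ : H ≃ₗ[Zp p] (evalHom e).range := (AlgEquiv.ofInjective (evalHom e) hinj).toLinearEquiv
    refine ⟨_, b.map θ, ?_, hn⟩
    have : (fun i => (((b.map θ) i : (evalHom e).range) : X → Qb)) = fun i => evalHom e (b i) := by
      funext i
      simp [θ]
    rw [this]
    exact linearIndependent_evalHom e heq b
  · rintro f ⟨a, rfl⟩
    exact evalHom_add_mem e hadd a
  · rintro f ⟨a, rfl⟩
    exact ⟨_, (evalHom_zero e hadd a).symm⟩
  · rintro f ⟨a, rfl⟩
    refine ⟨HopfAlgebra.antipodeAlgHom (Zp p) H a, ?_⟩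
    funext t
    exact (evalHom_neg e hadd a t).symm
  · rintro f ⟨a, rfl⟩ σ x
    exact evalHom_equivariant e heq a σ x

end Fermat.Agent.S19x.FF.FunDatum
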