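import Mathlib
import Fermat.Agent.S56x.Dict.FFPoints
import Fermat.Agent.S19x.HopfOrder

/-!
# P-S19 (helper64): function-level models of `IsFFPoints`

`FunModel p X act` : a `ℤ_(p)`-subalgebra `H` of the algebra of functions `X → ℚ̄` on the finite
`G_ℚ`-module `X`, free of rank `|X|` on a basis which is `ℚ̄`-linearly independent, closed under
`f ↦ ((s,t) ↦ f (s+t))` (in the span of the products), `f ↦ f 0` (values in `ℤ_(p)`),
`f ↦ f (-·)`, and consisting of `G_ℚ`-equivariant functions.

* `FunModel.isFFPoints` : a function-level model gives `IsFFPoints p X act` (this is helper57's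
  matrix-form Hopf-order lemma `S19x/HopfOrder.exists_hopfAlgebra`).

The converse is in `S19x/FF/FunModelOfFF.lean`.
-/

set_option autoImplicit false
set_option linter.style.haveILetI false
set_option linter.unusedSectionVars false

noncomputable section

namespace Fermat.Agent.S19x.FF

open Fermat.Agent.S56x.Dict.FFPoints Fermat.Agent.S19x.HopfOrder

local notation "Γℚ" => (AlgebraicClosure ℚ ≃ₐ[ℚ] AlgebraicClosure ℚ)
local notation "Qb" => AlgebraicClosure ℚ
local notation "Zp" p => GaloisRep.ratLocalizedAt p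

/-- function-level model of a finite flat group scheme over `ℤ_(p)` with group of `ℚ̄`-points
`X`. -/
structure FunModel (p : ℕ) (X : Type) [AddCommGroup X] (act : Γℚ → X → X) where
  /-- the Hopf order, as an algebra of functions on the points -/
  H : Subalgebra (Zp p) (X → Qb)
  /-- its rank -/
  n : ℕ
  /-- a basis -/
  b : Module.Basis (Fin n) (Zp p) H
  hli : LinearIndependent Qb (fun i => ((b i : H) : X → Qb))
  hcard : n = Nat.card X
  hΔ : ∀ f ∈ H, (fun st : X × X => f (st.1 + st.2)) ∈ Submodule.span (Zp p)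
      {F : X × X → Qb | ∃ g ∈ H, ∃ h ∈ H, F = fun st => g st.1 * h st.2}
  hε : ∀ f ∈ H, ∃ r : Zp p, algebraMap (Zp p) Qb r = f 0
  hS : ∀ f ∈ H, (fun t => f (-t)) ∈ H
  hequiv : ∀ (σ : Γℚ), ∀ f ∈ H, ∀ x, f (act σ x) = σ (f x)

theorem FunModel.algebraMap_zp_injective (p : ℕ) :
    Function.Injective (algebraMap (Zp p) Qb) := by
  intro x y hxy
  have h1 : algebraMap ℚ Qb (x : ℚ) = algebraMap ℚ Qb (y : ℚ) := hxy
  exact Subtype.ext ((algebraMap ℚ Qb).injective h1)

/-- the group of points of a function-level model is finite. -/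
theorem FunModel.finite {p : ℕ} {X : Type} [AddCommGroup X] {act : Γℚ → X → X}
    (M : FunModel p X act) : Finite X := by
  apply Nat.finite_of_card_ne_zero
  rw [← M.hcard]
  intro h0
  have hsub : Subsingleton (Fin M.n) := by rw [h0]; infer_instance
  have h1 : (1 : M.H) = 0 := by
    apply M.b.ext_elem
    intro i
    exact (IsEmpty.false (h0 ▸ i : Fin 0)).elim
  have h2 := congrArg (fun f : M.H => (f : X → Qb) 0) h1
  simp at h2

/-- **function-level models give `IsFFPoints`** (helper57's matrix-form Hopf-order lemma). -/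
theorem FunModel.isFFPoints {p : ℕ} {X : Type} [AddCommGroup X] {act : Γℚ → X → X}
    (M : FunModel p X act) : IsFFPoints p X act := by
  have hcard : Fintype.card (Fin M.n) = Nat.card X := by
    rw [Fintype.card_fin]; exact M.hcard
  haveI : Finite X := M.finite
  obtain ⟨inst, hfin, hflat, hcocomm, e, he1, he2⟩ :=
    exists_hopfAlgebra
      (Datum.ofSubalgebra M.H M.b M.hli (FunModel.algebraMap_zp_injective p) M.hΔ M.hε M.hS) hcard
      (fun (σ : Γℚ) (ω : Qb) => σ ω) act (fun σ a t => M.hequiv σ a a.2 t)
  exact ⟨Carrier M.H, inferInstance, inst, hfin, hflat, hcocomm, e, he1, he2⟩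

end Fermat.Agent.S19x.FF
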