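import Mathlib
import Fermat.Prelude.Def_GaloisRep_Flat

/-!
# P-S19 (helper64): Galois descent of stable subspaces of `ℚ̄ⁿ`, and `ℤ_(p)` is a PID

Common key lemmas for `IsFFPoints.of_subgroup` / `.of_quotient`.

* `exists_unit_mul_eq_intCast` : every element of `ℤ_(p)` is a unit times an integer;
* `isPrincipalIdealRing_ratLocalizedAt` : `ℤ_(p)` is a principal ideal ring (any `p`);
* `exists_rat_of_stable` : a non-zero `G_ℚ`-stable `ℚ̄`-subspace of `ℚ̄ⁿ` contains a non-zero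
  vector with rational coordinates (Galois descent, minimal support);
* `exists_int_of_stable` : ... with integer coordinates.
-/

set_option autoImplicit false
set_option linter.style.haveILetI false
set_option linter.unusedSectionVars false

noncomputable section

namespace Fermat.Agent.S19x.FF.StableVec

local notation "Γℚ" => (AlgebraicClosure ℚ ≃ₐ[ℚ] AlgebraicClosure ℚ)
local notation "Qb" => AlgebraicClosure ℚ
local notation "Zp" p => GaloisRep.ratLocalizedAt p

/-! ### `ℤ_(p)` is a principal ideal ring -/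

/-- every element of `ℤ_(p)` becomes an integer after multiplication by a unit. -/
theorem exists_unit_mul_eq_intCast (p : ℕ) (x : Zp p) :
    ∃ (u : (Zp p)ˣ) (n : ℤ), (u : Zp p) * x = (n : Zp p) := by
  obtain ⟨q, hq⟩ := x
  have hq' : q.den.Coprime p := hq
  have hinv : ((q.den : ℚ)⁻¹) ∈ GaloisRep.ratLocalizedAt p := by
    show ((q.den : ℚ)⁻¹).den.Coprime p
    rw [Rat.inv_natCast_den_of_pos q.den_pos]; exact hq'
  have hden0 : (q.den : ℚ) ≠ 0 := by exact_mod_cast q.den_nz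
  refine ⟨⟨(q.den : Zp p), ⟨(q.den : ℚ)⁻¹, hinv⟩, ?_, ?_⟩, q.num, ?_⟩
  · apply Subtype.ext
    simp [hden0]
  · apply Subtype.ext
    simp [hden0]
  · apply Subtype.ext
    simp only [Subring.coe_mul, Subring.coe_intCast, Subring.coe_natCast]
    show (q.den : ℚ) * q = (q.num : ℚ)
    rw [mul_comm, Rat.mul_den_eq_num]

instance isPrincipalIdealRing_ratLocalizedAt (p : ℕ) : IsPrincipalIdealRing (Zp p) := by
  refine ⟨fun J => ?_⟩
  obtain ⟨n, hn⟩ :=
    (IsPrincipalIdealRing.principal (J.comap (Int.castRingHom (Zp p)))).principal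
  refine ⟨⟨(n : Zp p), ?_⟩⟩
  rw [Ideal.submodule_span_eq]
  apply le_antisymm
  · intro x hx
    obtain ⟨u, m, hum⟩ := exists_unit_mul_eq_intCast p x
    have hm : m ∈ J.comap (Int.castRingHom (Zp p)) := by
      rw [Ideal.mem_comap]
      show ((m : ℤ) : Zp p) ∈ J
      rw [← hum]
      exact J.mul_mem_left _ hx
    rw [hn, Ideal.submodule_span_eq, Ideal.mem_span_singleton] at hm
    obtain ⟨k, rfl⟩ := hm
    rw [Ideal.mem_span_singleton]
    refine ⟨((u⁻¹ : (Zp p)ˣ) : Zp p) * (k : Zp p), ?_⟩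
    have : x = ((u⁻¹ : (Zp p)ˣ) : Zp p) * ((u : Zp p) * x) := by
      rw [← mul_assoc, Units.inv_mul, one_mul]
    rw [this, hum]
    push_cast
    ring
  · rw [Ideal.span_singleton_le_iff_mem]
    have : n ∈ J.comap (Int.castRingHom (Zp p)) := by
      rw [hn, Ideal.submodule_span_eq]
      exact Ideal.mem_span_singleton_self n
    exact this

/-! ### Galois descent: a stable subspace of `ℚ̄ⁿ` contains an integral vector -/

local instance isAlgebraicQbar_sv : Algebra.IsAlgebraic ℚ (AlgebraicClosure ℚ) :=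
  AlgebraicClosure.isAlgebraic ℚ
local instance isAlgClosureQbar_sv : IsAlgClosure ℚ (AlgebraicClosure ℚ) :=
  ⟨inferInstance, inferInstance⟩
local instance normalQbar_sv : Normal ℚ (AlgebraicClosure ℚ) :=
  IsAlgClosure.normal ℚ (AlgebraicClosure ℚ)
local instance isGaloisQbar_sv : IsGalois ℚ (AlgebraicClosure ℚ) := ⟨⟩

theorem exists_rat_of_stable {n : ℕ} (W : Submodule Qb (Fin n → Qb))
    (hW : ∀ (σ : Γℚ), ∀ w ∈ W, (fun i => σ (w i)) ∈ W) (hne : W ≠ ⊥) :
    ∃ w ∈ W, w ≠ 0 ∧ ∀ i, w i ∈ Set.range (algebraMap ℚ Qb) := by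
  classical
  have hex : ∃ k : ℕ, ∃ w ∈ W, w ≠ 0 ∧ (Finset.univ.filter (fun i => w i ≠ 0)).card = k := by
    obtain ⟨w, hw, hw0⟩ := (Submodule.ne_bot_iff W).1 hne
    exact ⟨_, w, hw, hw0, rfl⟩
  obtain ⟨w, hw, hw0, hk⟩ := Nat.find_spec hex
  have hmin : ∀ w' ∈ W, w' ≠ 0 →
      Nat.find hex ≤ (Finset.univ.filter (fun i => w' i ≠ 0)).card :=
    fun w' hw' hw'0 => Nat.find_min' hex ⟨w', hw', hw'0, rfl⟩
  obtain ⟨i₀, hi₀⟩ : ∃ i, w i ≠ 0 := by
    by_contra h
    push Not at h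
    exact hw0 (funext h)
  have hw'W : (w i₀)⁻¹ • w ∈ W := W.smul_mem _ hw
  have hw'i₀ : ((w i₀)⁻¹ • w) i₀ = 1 := by
    rw [Pi.smul_apply, smul_eq_mul, inv_mul_cancel₀ hi₀]
  refine ⟨(w i₀)⁻¹ • w, hw'W, ?_, ?_⟩
  · intro h
    rw [h] at hw'i₀
    exact zero_ne_one hw'i₀
  · intro i
    rw [InfiniteGalois.mem_range_algebraMap_iff_fixed]
    intro σ
    by_contra hne'
    have huW : (fun j => σ (((w i₀)⁻¹ • w) j)) - (w i₀)⁻¹ • w ∈ W :=
      W.sub_mem (hW σ _ hw'W) hw'W
    have hu0 : (fun j => σ (((w i₀)⁻¹ • w) j)) - (w i₀)⁻¹ • w ≠ 0 := by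
      intro h
      apply hne'
      have := congrFun h i
      rw [Pi.sub_apply, Pi.zero_apply, sub_eq_zero] at this
      exact this
    have hui₀ : ((fun j => σ (((w i₀)⁻¹ • w) j)) - (w i₀)⁻¹ • w) i₀ = 0 := by
      rw [Pi.sub_apply, hw'i₀, map_one, sub_self]
    have hsub : (Finset.univ.filter
        (fun j => ((fun j => σ (((w i₀)⁻¹ • w) j)) - (w i₀)⁻¹ • w) j ≠ 0)) ⊂
        (Finset.univ.filter (fun j => w j ≠ 0)) := by
      rw [Finset.ssubset_iff_of_subset]
      · refine ⟨i₀, ?_, ?_⟩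
        · simp [hi₀]
        · simp only [Finset.mem_filter, Finset.mem_univ, true_and, not_not]
          exact hui₀
      · intro j hj
        simp only [Finset.mem_filter, Finset.mem_univ, true_and] at hj ⊢
        intro hwj
        apply hj
        have h0 : ((w i₀)⁻¹ • w) j = 0 := by
          rw [Pi.smul_apply, hwj, smul_zero]
        rw [Pi.sub_apply, h0, map_zero, sub_self]
    have h1 := Finset.card_lt_card hsub
    have h2 := hmin _ huW hu0
    omega

theorem exists_int_of_stable {n : ℕ} (W : Submodule Qb (Fin n → Qb))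
    (hW : ∀ (σ : Γℚ), ∀ w ∈ W, (fun i => σ (w i)) ∈ W) (hne : W ≠ ⊥) :
    ∃ c : Fin n → ℤ, c ≠ 0 ∧ (fun i => ((c i : ℤ) : Qb)) ∈ W := by
  obtain ⟨w, hw, hw0, hrat⟩ := exists_rat_of_stable W hW hne
  choose q hq using hrat
  obtain ⟨b, hb⟩ := IsLocalization.exist_integer_multiples (nonZeroDivisors ℤ) Finset.univ q
  choose c hc using fun i => hb i (Finset.mem_univ i)
  have hb0 : ((b : ℤ) : Qb) ≠ 0 := by
    have : (b : ℤ) ≠ 0 := nonZeroDivisors.coe_ne_zero b
    exact_mod_cast this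
  have hcw : (fun i => ((c i : ℤ) : Qb)) = ((b : ℤ) : Qb) • w := by
    funext i
    have h1 := hc i
    have h2 : ((c i : ℤ) : ℚ) = ((b : ℤ) : ℚ) * q i := by
      rw [← zsmul_eq_mul]
      exact h1
    rw [Pi.smul_apply, smul_eq_mul, ← hq i]
    have h3 := congrArg (algebraMap ℚ Qb) h2
    rw [map_mul, map_intCast, map_intCast] at h3
    exact h3
  refine ⟨c, ?_, ?_⟩
  · intro hc0
    apply hw0
    have h4 : ((b : ℤ) : Qb) • w = 0 := by
      rw [← hcw, hc0]
      funext i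
      simp
    exact (smul_eq_zero.1 h4).resolve_left hb0
  · rw [hcw]
    exact W.smul_mem _ hw

end Fermat.Agent.S19x.FF.StableVec
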