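import Mathlib
import Fermat.Agent.S56x.Dict.FFPoints
import Fermat.Agent.S56x.Flat.PointsSeparate
import Fermat.Agent.S56x.Fontaine.PointsRational
import Fermat.Agent.S19x.FF.StableVec
import Fermat.Agent.S19x.FF.FunModel

/-!
# P-S19 (helper64): `IsFFPoints` gives a function-level model

The converse of `FunModel.isFFPoints`: if `X` is the group of `ℚ̄`-points of a finite flat
cocommutative Hopf algebra `H` over `ℤ_(p)`, then the image of `H` in the algebra of functions
`X → ℚ̄` is a function-level model (`exists_funModel`).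

Ingredients: points separate (`S56x/Flat/PointsSeparate`, Cartier), `ℤ_(p)` is a PID, Galois
descent of linear relations (`StableVec.exists_int_of_stable`), Dedekind independence of
characters.
-/

set_option autoImplicit false
set_option linter.style.haveILetI false
set_option linter.unusedSectionVars false

noncomputable section

namespace Fermat.Agent.S19x.FF.FunModelOfFF

open scoped TensorProduct
open WithConv Coalgebra Fermat.Agent.S56x.Dict.FFPoints Fermat.Agent.S19x.HopfOrder
  Fermat.Agent.S19x.FF.StableVec

local notation "Γℚ" => (AlgebraicClosure ℚ ≃ₐ[ℚ] AlgebraicClosure ℚ)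
local notation "Qb" => AlgebraicClosure ℚ
local notation "Zp" p => GaloisRep.ratLocalizedAt p

variable {p : ℕ} {X : Type} [AddCommGroup X] {act : Γℚ → X → X}
  {H : Type} [CommRing H] [HopfAlgebra (Zp p) H]
  (e : WithConv (H →ₐ[Zp p] Qb) ≃ X)

/-- the point attached to `x`. -/
def pt (x : X) : H →ₐ[Zp p] Qb := (e.symm x).ofConv

theorem pt_injective : Function.Injective (pt e) := fun _ _ h =>
  e.symm.injective (WithConv.ofConv_injective h)

theorem exists_pt (g : H →ₐ[Zp p] Qb) : ∃ x, pt e x = g :=
  ⟨e (toConv g), by simp [pt]⟩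

/-- evaluation at the points. -/
def ev : H →ₐ[Zp p] (X → Qb) := AlgHom.pi (fun x => pt e x)

@[simp] theorem ev_apply (h : H) (x : X) : ev e h x = pt e x h := rfl

section Add

variable (hadd : ∀ f g : WithConv (H →ₐ[Zp p] Qb), e (f * g) = e f + e g)
include hadd

theorem e_one : e 1 = 0 := by
  have h := hadd 1 1
  rw [mul_one] at h
  exact (add_eq_left.mp h.symm)

theorem symm_zero : e.symm 0 = 1 := by
  rw [← e_one e hadd, Equiv.symm_apply_apply]

theorem symm_add (x y : X) : e.symm (x + y) = e.symm x * e.symm y := by
  apply e.injective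
  rw [hadd, Equiv.apply_symm_apply, Equiv.apply_symm_apply, Equiv.apply_symm_apply]

theorem pt_zero (h : H) : pt e 0 h = algebraMap (Zp p) Qb (counit h) := by
  show (e.symm 0).ofConv h = _
  rw [symm_zero e hadd]
  rfl

theorem pt_add (x y : X) (h : H) :
    pt e (x + y) h =
      Algebra.TensorProduct.lift (pt e x) (pt e y) (fun _ _ => Commute.all _ _) (comul h) := by
  show (e.symm (x + y)).ofConv h = _
  rw [symm_add e hadd]
  exact AlgHom.convMul_apply _ _ h

theorem pt_neg (x : X) (h : H) : pt e (-x) h = pt e x (HopfAlgebra.antipode (Zp p) h) := by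
  have key : toConv ((pt e x).comp (HopfAlgebra.antipodeAlgHom (Zp p) H)) * e.symm x = 1 := by
    apply WithConv.ofConv_injective
    apply AlgHom.ext
    intro a
    rw [AlgHom.convMul_apply]
    show Algebra.TensorProduct.lift ((pt e x).comp (HopfAlgebra.antipodeAlgHom (Zp p) H))
      (pt e x) (fun _ _ => Commute.all _ _) (comul a) = algebraMap (Zp p) Qb (counit a)
    rw [← (ℛ (Zp p) a).eq, map_sum]
    simp only [Algebra.TensorProduct.lift_tmul, AlgHom.comp_apply]
    rw [← AlgHom.commutes (pt e x), ← HopfAlgebra.sum_antipode_mul_eq_algebraMap_counit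
      (ℛ (Zp p) a), map_sum]
    refine Finset.sum_congr rfl fun i _ => ?_
    rw [map_mul]
    rfl
  have h1 : e (toConv ((pt e x).comp (HopfAlgebra.antipodeAlgHom (Zp p) H))) = -x := by
    have h2 := congrArg e key
    rw [hadd, Equiv.apply_symm_apply, e_one e hadd] at h2
    exact eq_neg_of_add_eq_zero_left h2
  show (e.symm (-x)).ofConv h = _
  rw [← h1, Equiv.symm_apply_apply]
  rfl

end Add

/-! ### Galois action -/

/-- an automorphism of `ℚ̄`, as a `ℤ_(p)`-algebra map. -/
def galAlg (σ : Γℚ) : Qb →ₐ[Zp p] Qb := (σ : Qb →ₐ[ℚ] Qb).restrictScalars (Zp p)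

@[simp] theorem galAlg_apply (σ : Γℚ) (a : Qb) : galAlg (p := p) σ a = σ a := rfl

section Equivariant

variable (heq : ∀ (σ : Γℚ) (f g : WithConv (H →ₐ[Zp p] Qb)),
  (∀ h : H, g h = σ (f h)) → e g = act σ (e f))
include heq

theorem pt_act (σ : Γℚ) (x : X) (h : H) : pt e (act σ x) h = σ (pt e x h) := by
  have h1 : e (toConv ((galAlg σ).comp (pt e x))) = act σ (e (e.symm x)) :=
    heq σ (e.symm x) (toConv ((galAlg σ).comp (pt e x))) (fun _ => rfl)
  rw [Equiv.apply_symm_apply] at h1
  show (e.symm (act σ x)).ofConv h = _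
  rw [← h1, Equiv.symm_apply_apply]
  rfl

theorem act_act_inv (σ : Γℚ) (x : X) : act σ (act σ⁻¹ x) = x := by
  apply pt_injective e
  apply AlgHom.ext
  intro h
  rw [pt_act e heq, pt_act e heq]
  show σ (σ⁻¹ (pt e x h)) = pt e x h
  rw [← AlgEquiv.mul_apply, mul_inv_cancel, AlgEquiv.one_apply]

end Equivariant

/-! ### Galois descent of linear independence (integral form) -/

section Descent

variable {Z : Type}

/-- the space of linear relations between finitely many functions. -/
def relSpace {n : ℕ} (v : Fin n → Z → Qb) : Submodule Qb (Fin n → Qb) where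
  carrier := {c | ∀ z, ∑ i, c i * v i z = 0}
  add_mem' := by
    intro a b ha hb z
    simp only [Pi.add_apply, add_mul, Finset.sum_add_distrib, ha z, hb z, add_zero]
  zero_mem' := by
    intro z
    simp
  smul_mem' := by
    intro r a ha z
    simp only [Pi.smul_apply, smul_eq_mul, mul_assoc, ← Finset.mul_sum, ha z, mul_zero]

/-- a family of equivariant functions on a `G_ℚ`-set with no non-trivial relation with integer
coefficients is linearly independent over `ℚ̄`. -/
theorem linearIndependent_of_int {n : ℕ} (v : Fin n → Z → Qb) (actZ : Γℚ → Z → Z)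
    (hact : ∀ σ z, actZ σ (actZ σ⁻¹ z) = z)
    (hv : ∀ σ i z, v i (actZ σ z) = σ (v i z))
    (hint : ∀ c : Fin n → ℤ, (∀ z, ∑ i, (c i : Qb) * v i z = 0) → c = 0) :
    LinearIndependent Qb v := by
  classical
  have hstab : ∀ (σ : Γℚ), ∀ c ∈ relSpace v, (fun i => σ (c i)) ∈ relSpace v := by
    intro σ c hc z
    have h1 := hc (actZ σ⁻¹ z)
    have h2 := congrArg σ h1
    rw [map_sum, map_zero] at h2
    rw [← h2]
    refine Finset.sum_congr rfl fun i _ => ?_
    rw [map_mul, ← hv σ i, hact]
  have hbot : relSpace v = ⊥ := by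
    by_contra hne
    obtain ⟨c, hc0, hc⟩ := exists_int_of_stable (relSpace v) hstab hne
    exact hc0 (hint c hc)
  rw [Fintype.linearIndependent_iff]
  intro g hg i
  have hmem : g ∈ relSpace v := by
    intro z
    have := congrFun hg z
    simpa [Finset.sum_apply, Pi.smul_apply, smul_eq_mul] using this
  rw [hbot, Submodule.mem_bot] at hmem
  rw [hmem]
  rfl

end Descent

/-! ### Points separate, finiteness, basis -/

section Finite

variable [Module.Finite (Zp p) H] [Module.Flat (Zp p) H]

theorem ev_injective : Function.Injective (ev e) := by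
  intro a b hab
  have hinj : Function.Injective (algebraMap (Zp p) ℚ) := Subtype.val_injective
  refine Fermat.Agent.S56x.Flat.PointsSeparate.eq_of_forall_point_eq ℚ Qb hinj fun g => ?_
  obtain ⟨x, rfl⟩ := exists_pt e g
  exact congrFun hab x

include e in
theorem finite_X : Finite X := by
  haveI : Finite (H →ₐ[Zp p] Qb) :=
    Fermat.Agent.S56x.Fontaine.PointsRational.finite_points
  exact Finite.of_injective (pt e) (pt_injective e)

theorem intCast_zp_injective : Function.Injective (fun c : ℤ => (c : Zp p)) := by
  intro a b hab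
  have h1 : ((a : Zp p) : ℚ) = ((b : Zp p) : ℚ) := congrArg Subtype.val hab
  exact_mod_cast h1

variable (heq : ∀ (σ : Γℚ) (f g : WithConv (H →ₐ[Zp p] Qb)),
  (∀ h : H, g h = σ (f h)) → e g = act σ (e f))

include heq in
/-- the image of a basis of `H` is `ℚ̄`-linearly independent. -/
theorem linearIndependent_ev {n : ℕ} (b : Module.Basis (Fin n) (Zp p) H) :
    LinearIndependent Qb (fun i => ev e (b i)) := by
  refine linearIndependent_of_int _ act (act_act_inv e heq)
    (fun σ i x => pt_act e heq σ x (b i)) ?_
  intro c hc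
  have h1 : ev e (∑ i, (c i : Zp p) • b i) = 0 := by
    funext x
    rw [ev_apply, map_sum, Pi.zero_apply, ← hc x]
    refine Finset.sum_congr rfl fun i _ => ?_
    rw [map_smul, ev_apply, Algebra.smul_def, map_intCast]
  have h2 : ∑ i, (c i : Zp p) • b i = 0 := ev_injective e (by rw [h1, map_zero])
  have h3 := Fintype.linearIndependent_iff.1 b.linearIndependent _ h2
  funext i
  have h4 : ((c i : ℤ) : Zp p) = ((0 : ℤ) : Zp p) := by rw [h3 i, Int.cast_zero]
  exact intCast_zp_injective h4

include e in
/-- the number of points is at most the rank (Dedekind independence of characters). -/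
theorem card_le {n : ℕ} (b : Module.Basis (Fin n) (Zp p) H) [Fintype X] :
    Fintype.card X ≤ n := by
  classical
  have hli : LinearIndependent Qb (fun x : X => (fun i => pt e x (b i) : Fin n → Qb)) := by
    rw [Fintype.linearIndependent_iff]
    intro g hg
    have hD : LinearIndependent Qb (fun x : X => ((pt e x : H →* Qb) : H → Qb)) := by
      have h0 := linearIndependent_monoidHom H Qb
      have hinj : Function.Injective (fun x : X => ((pt e x : H →ₐ[Zp p] Qb) : H →* Qb)) := by
        intro x y hxy
        apply pt_injective e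
        apply AlgHom.ext
        intro h
        exact DFunLike.congr_fun hxy h
      exact h0.comp _ hinj
    apply Fintype.linearIndependent_iff.1 hD g
    funext h
    simp only [Finset.sum_apply, Pi.smul_apply, smul_eq_mul, Pi.zero_apply]
    have hh : h = ∑ i, b.repr h i • b i := (b.sum_repr h).symm
    have h2 : ∀ x : X, ((pt e x : H →* Qb) : H → Qb) h
        = ∑ i, algebraMap (Zp p) Qb (b.repr h i) * pt e x (b i) := by
      intro x
      show pt e x h = _
      conv_lhs => rw [hh]
      rw [map_sum]
      refine Finset.sum_congr rfl fun i _ => ?_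
      rw [map_smul, Algebra.smul_def]
    simp only [h2, Finset.mul_sum]
    rw [Finset.sum_comm]
    refine Finset.sum_eq_zero fun i _ => ?_
    have h3 := congrFun hg i
    simp only [Finset.sum_apply, Pi.smul_apply, smul_eq_mul, Pi.zero_apply] at h3
    calc ∑ x, g x * (algebraMap (Zp p) Qb (b.repr h i) * pt e x (b i))
        = algebraMap (Zp p) Qb (b.repr h i) * ∑ x, g x * pt e x (b i) := by
          rw [Finset.mul_sum]
          refine Finset.sum_congr rfl fun x _ => ?_
          ring
      _ = 0 := by rw [h3, mul_zero]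
  have := hli.fintype_card_le_finrank
  simpa using this

end Finite

/-! ### The comultiplication at function level -/

theorem lift_eq_extProd (z : H ⊗[Zp p] H) (s t : X) :
    Algebra.TensorProduct.lift (pt e s) (pt e t) (fun _ _ => Commute.all _ _) z
      = extProd (ev e) (ev e) z (s, t) := by
  induction z using TensorProduct.induction_on with
  | zero => simp
  | tmul a b => rw [Algebra.TensorProduct.lift_tmul, extProd_tmul]; rfl
  | add z w hz hw => rw [map_add, map_add, Pi.add_apply, hz, hw]

theorem extProd_mem_span (z : H ⊗[Zp p] H) :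
    extProd (ev e) (ev e) z ∈ Submodule.span (Zp p)
      {F : X × X → Qb | ∃ g ∈ (ev e).range, ∃ h ∈ (ev e).range,
        F = fun st => g st.1 * h st.2} := by
  induction z using TensorProduct.induction_on with
  | zero => rw [map_zero]; exact Submodule.zero_mem _
  | tmul a b =>
    refine Submodule.subset_span ⟨ev e a, ⟨a, rfl⟩, ev e b, ⟨b, rfl⟩, ?_⟩
    funext st
    exact extProd_tmul (ev e) (ev e) a b st
  | add z w hz hw => rw [map_add]; exact Submodule.add_mem _ hz hw

end Fermat.Agent.S19x.FF.FunModelOfFF

namespace Fermat.Agent.S19x.FF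

open Fermat.Agent.S56x.Dict.FFPoints Fermat.Agent.S19x.FF.FunModelOfFF

local notation "Γℚ" => (AlgebraicClosure ℚ ≃ₐ[ℚ] AlgebraicClosure ℚ)
local notation "Qb" => AlgebraicClosure ℚ
local notation "Zp" p => GaloisRep.ratLocalizedAt p

/-- **`IsFFPoints` gives a function-level model**: the converse of `FunModel.isFFPoints`. -/
theorem exists_funModel {p : ℕ} {X : Type} [AddCommGroup X] {act : Γℚ → X → X}
    (h : IsFFPoints p X act) : Nonempty (FunModel p X act) := by
  classical
  obtain ⟨H, i1, i2, hfin, hflat, hco, e, hadd, heq⟩ := h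
  haveI := hfin
  haveI := hflat
  haveI : Finite X := finite_X e
  haveI : Fintype X := Fintype.ofFinite X
  haveI : Module.Free (Zp p) H := inferInstance
  obtain ⟨n, hn⟩ : ∃ n, n = Module.finrank (Zp p) H := ⟨_, rfl⟩
  let b : Module.Basis (Fin n) (Zp p) H := (Module.finBasis (Zp p) H).reindex (finCongr hn.symm)
  have hinj := ev_injective e
  let E : H ≃ₐ[Zp p] (ev e).range := AlgEquiv.ofInjective (ev e) hinj
  let b' : Module.Basis (Fin n) (Zp p) (ev e).range := b.map E.toLinearEquiv
  have hb' : ∀ i, ((b' i : (ev e).range) : X → Qb) = ev e (b i) := fun i => by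
    simp [b', E]
  have hli : LinearIndependent Qb (fun i => ev e (b i)) := linearIndependent_ev e heq b
  have hcard : n = Nat.card X := by
    rw [Nat.card_eq_fintype_card]
    apply le_antisymm
    · have := hli.fintype_card_le_finrank
      simpa using this
    · exact card_le e b
  refine ⟨{ H := (ev e).range, n := n, b := b', hli := ?_, hcard := hcard, hΔ := ?_, hε := ?_,
            hS := ?_, hequiv := ?_ }⟩
  · have : (fun i => ((b' i : (ev e).range) : X → Qb)) = fun i => ev e (b i) := funext hb'
    rw [this]
    exact hli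
  · rintro f ⟨a, rfl⟩
    have h1 : (fun st : X × X => ev e a (st.1 + st.2))
        = HopfOrder.extProd (ev e) (ev e) (Coalgebra.comul a) := by
      funext st
      rw [ev_apply, pt_add e hadd, lift_eq_extProd]
    change (fun st : X × X => ev e a (st.1 + st.2)) ∈ _
    rw [h1]
    exact extProd_mem_span e _
  · rintro f ⟨a, rfl⟩
    exact ⟨Coalgebra.counit a, (pt_zero e hadd a).symm⟩
  · rintro f ⟨a, rfl⟩
    refine ⟨HopfAlgebra.antipode (Zp p) a, ?_⟩
    funext t
    exact (pt_neg e hadd t a).symm
  · rintro σ f ⟨a, rfl⟩ x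
    exact pt_act e heq σ x a

end Fermat.Agent.S19x.FF
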