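import Mathlib
import Fermat.Agent.S19x.FF.StableVec
import Fermat.Agent.S19x.FF.FunModel
import Fermat.Agent.S19x.FF.FunModelOfFF

/-!
# P-S19 (helper64): quotients of function-level models

`M : FunModel p X act`, `Y ≤ X` a `G_ℚ`-stable subgroup: the `Y`-invariant functions of `M.H`,
seen as functions on `X ⧸ Y`, form a function-level model of `X ⧸ Y` (`FunModel.quot`).
Consequence: `IsFFPoints.of_quotient` (in `S19x/FFQuot.lean`).
-/

set_option autoImplicit false
set_option linter.style.haveILetI false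
set_option linter.unusedSectionVars false

noncomputable section

namespace Fermat.Agent.S19x.FF.FunModel

open Fermat.Agent.S19x.FF.FunModelOfFF Fermat.Agent.S19x.FF.StableVec

local notation "Γℚ" => (AlgebraicClosure ℚ ≃ₐ[ℚ] AlgebraicClosure ℚ)
local notation "Qb" => AlgebraicClosure ℚ
local notation "Zp" p => GaloisRep.ratLocalizedAt p

local instance isAlgebraicQbar_fmq : Algebra.IsAlgebraic ℚ (AlgebraicClosure ℚ) :=
  AlgebraicClosure.isAlgebraic ℚ
local instance isAlgClosureQbar_fmq : IsAlgClosure ℚ (AlgebraicClosure ℚ) :=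
  ⟨inferInstance, inferInstance⟩
local instance normalQbar_fmq : Normal ℚ (AlgebraicClosure ℚ) :=
  IsAlgClosure.normal ℚ (AlgebraicClosure ℚ)
local instance isGaloisQbar_fmq : IsGalois ℚ (AlgebraicClosure ℚ) := ⟨⟩

variable {p : ℕ} {X : Type} [AddCommGroup X] {act : Γℚ → X → X} (M : FunModel p X act)

/-! ### Basic consequences of the axioms of a function-level model -/

/-- the basis functions, as functions. -/
def bf (i : Fin M.n) : X → Qb := ((M.b i : M.H) : X → Qb)

theorem bf_mem (i : Fin M.n) : M.bf i ∈ M.H := (M.b i).2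

theorem span_bf_eq_top : Submodule.span Qb (Set.range M.bf) = ⊤ := by
  haveI : Finite X := M.finite
  haveI : Fintype X := Fintype.ofFinite X
  refine LinearIndependent.span_eq_top_of_card_eq_finrank' M.hli ?_
  rw [Fintype.card_fin, Module.finrank_fintype_fun_eq_card, M.hcard, Nat.card_eq_fintype_card]

theorem exists_coeffs (g : X → Qb) : ∃ c : Fin M.n → Qb, ∑ i, c i • M.bf i = g := by
  have h : g ∈ Submodule.span Qb (Set.range M.bf) := by rw [M.span_bf_eq_top]; trivial
  exact (Submodule.mem_span_range_iff_exists_fun Qb).1 h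

/-- the functions of the model separate the points. -/
theorem separates {x x' : X} (h : ∀ f ∈ M.H, f x = f x') : x = x' := by
  classical
  by_contra hne
  obtain ⟨c, hc⟩ := M.exists_coeffs (Pi.single x 1)
  have h1 := congrFun hc x
  have h2 := congrFun hc x'
  simp only [Finset.sum_apply, Pi.smul_apply, smul_eq_mul, Pi.single_eq_same] at h1 h2
  rw [Pi.single_eq_of_ne (Ne.symm hne)] at h2
  have h3 : ∑ i, c i * M.bf i x = ∑ i, c i * M.bf i x' :=
    Finset.sum_congr rfl fun i _ => by rw [h (M.bf i) (M.bf_mem i)]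
  rw [h1, h2] at h3
  exact one_ne_zero h3

theorem sigma_algebraMap (σ : Γℚ) (r : Zp p) :
    σ (algebraMap (Zp p) Qb r) = algebraMap (Zp p) Qb r := by
  rw [IsScalarTower.algebraMap_apply (Zp p) ℚ Qb]
  exact σ.commutes _

include M in
theorem act_act_inv (σ : Γℚ) (x : X) : act σ (act σ⁻¹ x) = x := by
  apply M.separates
  intro f hf
  rw [M.hequiv σ f hf, M.hequiv σ⁻¹ f hf]
  show σ (σ⁻¹ (f x)) = f x
  rw [← AlgEquiv.mul_apply, mul_inv_cancel, AlgEquiv.one_apply]

include M in
theorem act_inv_act (σ : Γℚ) (x : X) : act σ⁻¹ (act σ x) = x := by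
  have := M.act_act_inv σ⁻¹ x
  rwa [inv_inv] at this

include M in
theorem act_injective (σ : Γℚ) : Function.Injective (act σ) := fun x y h => by
  rw [← M.act_inv_act σ x, ← M.act_inv_act σ y, h]

/-- elements of the span of the products are equivariant on pairs. -/
theorem pair_equivariant (σ : Γℚ) {Ψ : X × X → Qb}
    (hΨ : Ψ ∈ Submodule.span (Zp p)
      {F : X × X → Qb | ∃ g ∈ M.H, ∃ h ∈ M.H, F = fun st => g st.1 * h st.2}) (s t : X) :
    Ψ (act σ s, act σ t) = σ (Ψ (s, t)) := by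
  induction hΨ using Submodule.span_induction with
  | mem F hF =>
    obtain ⟨g, hg, h, hh, rfl⟩ := hF
    show g (act σ s) * h (act σ t) = σ (g s * h t)
    rw [M.hequiv σ g hg, M.hequiv σ h hh, map_mul]
  | zero => simp
  | add F G _ _ hF hG => rw [Pi.add_apply, Pi.add_apply, hF, hG, map_add]
  | smul r F _ hF =>
    rw [Pi.smul_apply, Pi.smul_apply, hF, Algebra.smul_def, Algebra.smul_def, map_mul,
      sigma_algebraMap]

include M in
theorem act_add (σ : Γℚ) (s t : X) : act σ (s + t) = act σ s + act σ t := by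
  apply M.separates
  intro f hf
  rw [M.hequiv σ f hf]
  exact (M.pair_equivariant σ (M.hΔ f hf) s t).symm

/-! ### Rationality: equivariant functions lie in `M.H ⊗ ℚ` -/

theorem exists_int_smul_mem (g : X → Qb) (hg : ∀ σ x, g (act σ x) = σ (g x)) :
    ∃ d : ℤ, d ≠ 0 ∧ ((d : Qb) • g) ∈ M.H := by
  classical
  obtain ⟨c, hc⟩ := M.exists_coeffs g
  -- the coefficients are Galois-invariant
  have hfix : ∀ (σ : Γℚ) i, σ (c i) = c i := by
    intro σ
    have h1 : ∑ i, (σ (c i) - c i) • M.bf i = 0 := by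
      funext x
      have h2 := congrFun hc (act σ⁻¹ x)
      have h3 := congrArg σ h2
      simp only [Finset.sum_apply, Pi.smul_apply, smul_eq_mul, map_sum, map_mul] at h3
      rw [← hg, M.act_act_inv] at h3
      have h4 := congrFun hc x
      simp only [Finset.sum_apply, Pi.smul_apply, smul_eq_mul] at h4
      simp only [Finset.sum_apply, Pi.smul_apply, smul_eq_mul, Pi.zero_apply, sub_mul,
        Finset.sum_sub_distrib, h4]
      rw [sub_eq_zero, ← h3]
      refine Finset.sum_congr rfl fun i _ => ?_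
      rw [← M.hequiv σ _ (M.bf_mem i), M.act_act_inv]
    intro i
    have := Fintype.linearIndependent_iff.1 M.hli _ h1 i
    exact sub_eq_zero.1 this
  have hrat : ∀ i, c i ∈ Set.range (algebraMap ℚ Qb) := fun i =>
    (InfiniteGalois.mem_range_algebraMap_iff_fixed (c i)).2 fun σ => hfix σ i
  choose q hq using hrat
  obtain ⟨d, hd⟩ := IsLocalization.exist_integer_multiples (nonZeroDivisors ℤ) Finset.univ q
  choose m hm using fun i => hd i (Finset.mem_univ i)
  refine ⟨(d : ℤ), nonZeroDivisors.coe_ne_zero d, ?_⟩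
  have key : ((d : ℤ) : Qb) • g = ∑ i, ((m i : ℤ) : Zp p) • M.bf i := by
    rw [← hc, Finset.smul_sum]
    refine Finset.sum_congr rfl fun i _ => ?_
    have h2 : ((m i : ℤ) : ℚ) = ((d : ℤ) : ℚ) * q i := by
      rw [← zsmul_eq_mul]
      exact hm i
    have h3 := congrArg (algebraMap ℚ Qb) h2
    rw [map_mul, map_intCast, map_intCast, hq i] at h3
    rw [smul_smul, ← h3]
    funext x
    show ((m i : ℤ) : Qb) * M.bf i x = ((((m i : ℤ) : Zp p)) : ℚ) • M.bf i x
    rw [Subring.coe_intCast, Algebra.smul_def, map_intCast]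
  rw [key]
  exact Subalgebra.sum_mem _ fun i _ => Subalgebra.smul_mem _ (M.bf_mem i) _

/-! ### Invariant functions and functions on the quotient -/

section Quot

variable (Y : AddSubgroup X)

/-- invariance under translation by `Y`. -/
def IsInv (f : X → Qb) : Prop := ∀ x, ∀ y ∈ Y, f (x + y) = f x

/-- an invariant function, as a function on the quotient. -/
def descend (f : X → Qb) (hf : IsInv Y f) : X ⧸ Y → Qb := fun q =>
  Quotient.liftOn' q f (fun a b hab => by
    have h1 : -a + b ∈ Y := QuotientAddGroup.leftRel_apply.1 hab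
    have h2 := hf a (-a + b) h1
    rw [add_neg_cancel_left] at h2
    exact h2.symm)

@[simp] theorem descend_mk (f : X → Qb) (hf : IsInv Y f) (x : X) :
    descend Y f hf (QuotientAddGroup.mk x) = f x := rfl

theorem isInv_comp_mk (F : X ⧸ Y → Qb) : IsInv Y (fun x => F (QuotientAddGroup.mk x)) := by
  intro x y hy
  show F _ = F _
  congr 1
  rw [QuotientAddGroup.mk_add, (QuotientAddGroup.eq_zero_iff y).2 hy, add_zero]

/-- the algebra of functions on `X ⧸ Y` whose pull-back to `X` lies in `M.H`. -/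
def quotAlg : Subalgebra (Zp p) (X ⧸ Y → Qb) :=
  M.H.comap (HopfOrder.pullAlg (R := Zp p) (QuotientAddGroup.mk : X → X ⧸ Y))

theorem mem_quotAlg {F : X ⧸ Y → Qb} :
    F ∈ M.quotAlg Y ↔ (fun x => F (QuotientAddGroup.mk x)) ∈ M.H := Iff.rfl

theorem descend_mem {f : X → Qb} (hf : f ∈ M.H) (hinv : IsInv Y f) :
    descend Y f hinv ∈ M.quotAlg Y := by
  rw [mem_quotAlg]
  exact hf

/-- pull-back, as a linear map. -/
def quotToH : M.quotAlg Y →ₗ[Zp p] M.H where
  toFun F := ⟨fun x => (F : X ⧸ Y → Qb) (QuotientAddGroup.mk x), F.2⟩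
  map_add' _ _ := rfl
  map_smul' _ _ := rfl

theorem quotToH_injective : Function.Injective (M.quotToH Y) := by
  intro F G h
  apply Subtype.ext
  funext q
  obtain ⟨x, rfl⟩ := QuotientAddGroup.mk_surjective q
  exact congrFun (congrArg Subtype.val h) x

instance finite_H : Module.Finite (Zp p) M.H := Module.Finite.of_basis M.b

instance free_H : Module.Free (Zp p) M.H := Module.Free.of_basis M.b

instance finite_quotAlg : Module.Finite (Zp p) (M.quotAlg Y) :=
  Module.Finite.of_injective (M.quotToH Y) (M.quotToH_injective Y)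

instance isTorsionFree_quotAlg : Module.IsTorsionFree (Zp p) (M.quotAlg Y) :=
  Function.Injective.moduleIsTorsionFree (M.quotToH Y) (M.quotToH_injective Y)
    (fun r m => map_smul (M.quotToH Y) r m)

instance free_quotAlg : Module.Free (Zp p) (M.quotAlg Y) := inferInstance

variable (hY : ∀ σ, ∀ y ∈ Y, act σ y ∈ Y) (actQ : Γℚ → X ⧸ Y → X ⧸ Y)
  (hQ : ∀ σ x, actQ σ (QuotientAddGroup.mk x) = QuotientAddGroup.mk (act σ x))

include hQ in
theorem quot_equivariant (σ : Γℚ) {F : X ⧸ Y → Qb} (hF : F ∈ M.quotAlg Y) (q : X ⧸ Y) :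
    F (actQ σ q) = σ (F q) := by
  obtain ⟨x, rfl⟩ := QuotientAddGroup.mk_surjective q
  rw [hQ]
  exact M.hequiv σ _ hF x

include M hQ in
theorem actQ_actQ_inv (σ : Γℚ) (q : X ⧸ Y) : actQ σ (actQ σ⁻¹ q) = q := by
  obtain ⟨x, rfl⟩ := QuotientAddGroup.mk_surjective q
  rw [hQ, hQ, M.act_act_inv]

include hQ in
/-- a basis of the quotient algebra is `ℚ̄`-linearly independent. -/
theorem linearIndependent_quot {r : ℕ} (b' : Module.Basis (Fin r) (Zp p) (M.quotAlg Y)) :
    LinearIndependent Qb (fun k => ((b' k : M.quotAlg Y) : X ⧸ Y → Qb)) := by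
  refine linearIndependent_of_int _ actQ (M.actQ_actQ_inv Y actQ hQ)
    (fun σ k q => M.quot_equivariant Y actQ hQ σ (b' k).2 q) ?_
  intro c hc
  have h2 : ∑ k, (c k : Zp p) • b' k = 0 := by
    apply Subtype.ext
    funext q
    have h3 : ((∑ k, (c k : Zp p) • b' k : M.quotAlg Y) : X ⧸ Y → Qb) q
        = ∑ k, (c k : Qb) * ((b' k : M.quotAlg Y) : X ⧸ Y → Qb) q := by
      rw [AddSubmonoidClass.coe_finset_sum, Finset.sum_apply]
      refine Finset.sum_congr rfl fun k _ => ?_
      show ((((c k : ℤ) : Zp p)) : ℚ) • ((b' k : M.quotAlg Y) : X ⧸ Y → Qb) q = _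
      rw [Subring.coe_intCast, Algebra.smul_def, map_intCast]
    rw [h3, hc q]
    rfl
  have h3 := Fintype.linearIndependent_iff.1 b'.linearIndependent _ h2
  funext k
  have h4 : ((c k : ℤ) : Zp p) = ((0 : ℤ) : Zp p) := by rw [h3 k, Int.cast_zero]
  exact intCast_zp_injective h4

/-! ### Traces over `Y` -/

section Trace

variable [Fintype Y]

/-- the trace over `Y`. -/
def tr (f : X → Qb) : X → Qb := fun x => ∑ y : Y, f (x + y)

theorem tr_isInv (f : X → Qb) : IsInv Y (tr Y f) := by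
  intro x y0 hy0
  show ∑ y : Y, f (x + y0 + y) = ∑ y : Y, f (x + y)
  refine Fintype.sum_equiv (Equiv.addLeft (⟨y0, hy0⟩ : Y)) _ _ fun y => ?_
  show f (x + y0 + y) = f (x + ((⟨y0, hy0⟩ + y : Y) : X))
  rw [AddSubgroup.coe_add, add_assoc]

theorem tr_of_isInv {φ : X → Qb} (h : IsInv Y φ) : tr Y φ = (Fintype.card Y : Qb) • φ := by
  funext x
  show ∑ y : Y, φ (x + y) = (Fintype.card Y : Qb) * φ x
  rw [Finset.sum_congr rfl (fun (y : Y) _ => h x (y : X) y.2), Finset.sum_const,
    Finset.card_univ, nsmul_eq_mul]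

theorem tr_sum_smul {n : ℕ} (c : Fin n → Qb) (v : Fin n → X → Qb) :
    tr Y (∑ i, c i • v i) = ∑ i, c i • tr Y (v i) := by
  funext x
  show ∑ y : Y, (∑ i, c i • v i) (x + y) = (∑ i, c i • tr Y (v i)) x
  simp only [Finset.sum_apply, Pi.smul_apply, smul_eq_mul, tr, Finset.mul_sum]
  exact Finset.sum_comm

include M hY in
theorem tr_equivariant {f : X → Qb} (hf : f ∈ M.H) (σ : Γℚ) (x : X) :
    tr Y f (act σ x) = σ (tr Y f x) := by
  let E : Y ≃ Y :=
    { toFun := fun y => ⟨act σ y, hY σ y y.2⟩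
      invFun := fun y => ⟨act σ⁻¹ y, hY σ⁻¹ y y.2⟩
      left_inv := fun y => Subtype.ext (M.act_inv_act σ y)
      right_inv := fun y => Subtype.ext (M.act_act_inv σ y) }
  show ∑ y : Y, f (act σ x + y) = σ (∑ y : Y, f (x + y))
  rw [map_sum]
  refine (Fintype.sum_equiv E _ _ fun y => ?_).symm
  show σ (f (x + y)) = f (act σ x + act σ y)
  rw [← M.act_add, M.hequiv σ f hf]

end Trace

include hY hQ in
/-- the quotient algebra spans all functions on `X ⧸ Y`. -/
theorem span_quot_eq_top {r : ℕ} (b' : Module.Basis (Fin r) (Zp p) (M.quotAlg Y)) :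
    Submodule.span Qb (Set.range fun k => ((b' k : M.quotAlg Y) : X ⧸ Y → Qb)) = ⊤ := by
  classical
  haveI : Finite X := M.finite
  haveI : Fintype Y := Fintype.ofFinite Y
  rw [eq_top_iff]
  intro Φ _
  obtain ⟨c, hc⟩ := M.exists_coeffs (fun x => Φ (QuotientAddGroup.mk x))
  have hd : ∀ i, ∃ d : ℤ, d ≠ 0 ∧ ((d : Qb) • tr Y (M.bf i)) ∈ M.H := fun i =>
    M.exists_int_smul_mem _ (fun σ x => M.tr_equivariant Y hY (M.bf_mem i) σ x)
  choose d hd0 hdmem using hd
  have hinv : ∀ i, IsInv Y ((d i : Qb) • tr Y (M.bf i)) := by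
    intro i x y hy
    show (d i : Qb) * tr Y (M.bf i) (x + y) = (d i : Qb) * tr Y (M.bf i) x
    rw [tr_isInv Y (M.bf i) x y hy]
  have hG : ∀ i, descend Y _ (hinv i) ∈ M.quotAlg Y := fun i => M.descend_mem Y (hdmem i) (hinv i)
  have hGspan : ∀ i, descend Y _ (hinv i) ∈
      Submodule.span Qb (Set.range fun k => ((b' k : M.quotAlg Y) : X ⧸ Y → Qb)) := by
    intro i
    have h1 : descend Y _ (hinv i) = ∑ k, algebraMap (Zp p) Qb (b'.repr ⟨_, hG i⟩ k) •
        ((b' k : M.quotAlg Y) : X ⧸ Y → Qb) := by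
      have h2 := congrArg (fun F : M.quotAlg Y => (F : X ⧸ Y → Qb)) (b'.sum_repr ⟨_, hG i⟩)
      simp only at h2
      refine h2.symm.trans ?_
      rw [AddSubmonoidClass.coe_finset_sum]
      refine Finset.sum_congr rfl fun k _ => ?_
      rw [algebraMap_smul]
      rfl
    rw [h1]
    exact Submodule.sum_mem _ fun k _ => Submodule.smul_mem _ _ (Submodule.subset_span ⟨k, rfl⟩)
  have hcard0 : (Fintype.card Y : Qb) ≠ 0 := by
    have : 0 < Fintype.card Y := Fintype.card_pos
    exact_mod_cast this.ne'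
  have key : (Fintype.card Y : Qb) • Φ = ∑ i, (c i * (d i : Qb)⁻¹) • descend Y _ (hinv i) := by
    funext q
    obtain ⟨x, rfl⟩ := QuotientAddGroup.mk_surjective q
    have h1 : tr Y (fun x => Φ (QuotientAddGroup.mk x)) = (Fintype.card Y : Qb) •
        (fun x => Φ (QuotientAddGroup.mk x)) := tr_of_isInv Y (isInv_comp_mk Y Φ)
    have h2 := congrFun h1 x
    rw [← hc, tr_sum_smul] at h2
    simp only [Finset.sum_apply, Pi.smul_apply, smul_eq_mul] at h2
    simp only [Finset.sum_apply, Pi.smul_apply, smul_eq_mul, descend_mk]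
    have h3 := congrFun hc x
    simp only [Finset.sum_apply, Pi.smul_apply, smul_eq_mul] at h3
    rw [← h3, ← h2]
    refine Finset.sum_congr rfl fun i _ => ?_
    have hdi : (d i : Qb) ≠ 0 := by exact_mod_cast hd0 i
    field_simp
  have h4 : Φ = (Fintype.card Y : Qb)⁻¹ • ∑ i, (c i * (d i : Qb)⁻¹) • descend Y _ (hinv i) := by
    rw [← key, smul_smul, inv_mul_cancel₀ hcard0, one_smul]
  rw [h4]
  exact Submodule.smul_mem _ _ (Submodule.sum_mem _ fun i _ => Submodule.smul_mem _ _ (hGspan i))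

include hY hQ in
/-- the rank of the quotient algebra is the order of the quotient. -/
theorem card_quot {r : ℕ} (b' : Module.Basis (Fin r) (Zp p) (M.quotAlg Y)) :
    r = Nat.card (X ⧸ Y) := by
  classical
  haveI : Finite X := M.finite
  haveI : Fintype (X ⧸ Y) := Fintype.ofFinite _
  rw [Nat.card_eq_fintype_card]
  apply le_antisymm
  · have := (M.linearIndependent_quot Y actQ hQ b').fintype_card_le_finrank
    simpa using this
  · have h1 := finrank_range_le_card (R := Qb)
      (fun k => ((b' k : M.quotAlg Y) : X ⧸ Y → Qb))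
    rw [Set.finrank, M.span_quot_eq_top Y hY actQ hQ b', finrank_top,
      Module.finrank_fintype_fun_eq_card, Fintype.card_fin] at h1
    exact h1

/-! ### The comultiplication on the quotient algebra -/

theorem repr_fun {h : X → Qb} (hh : h ∈ M.H) (t : X) :
    h t = ∑ i, algebraMap (Zp p) Qb (M.b.repr ⟨h, hh⟩ i) * M.bf i t := by
  have h2 := congrArg (fun F : M.H => (F : X → Qb) t) (M.b.sum_repr ⟨h, hh⟩)
  simp only at h2
  refine h2.symm.trans ?_
  rw [AddSubmonoidClass.coe_finset_sum, Finset.sum_apply]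
  refine Finset.sum_congr rfl fun i _ => ?_
  rw [← smul_eq_mul, algebraMap_smul]
  rfl

theorem repr_fun_quot {r : ℕ} (b' : Module.Basis (Fin r) (Zp p) (M.quotAlg Y))
    {G : X ⧸ Y → Qb} (hG : G ∈ M.quotAlg Y) (q : X ⧸ Y) :
    G q = ∑ k, algebraMap (Zp p) Qb (b'.repr ⟨G, hG⟩ k) *
      ((b' k : M.quotAlg Y) : X ⧸ Y → Qb) q := by
  have h2 := congrArg (fun F : M.quotAlg Y => (F : X ⧸ Y → Qb) q) (b'.sum_repr ⟨G, hG⟩)
  simp only at h2
  refine h2.symm.trans ?_
  rw [AddSubmonoidClass.coe_finset_sum, Finset.sum_apply]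
  refine Finset.sum_congr rfl fun k _ => ?_
  rw [← smul_eq_mul, algebraMap_smul]
  rfl

/-- elements of the span of the products, expanded along the basis in the second variable. -/
theorem exists_left_coeffs {Ψ : X × X → Qb}
    (hΨ : Ψ ∈ Submodule.span (Zp p)
      {F : X × X → Qb | ∃ g ∈ M.H, ∃ h ∈ M.H, F = fun st => g st.1 * h st.2}) :
    ∃ a : Fin M.n → X → Qb, (∀ i, a i ∈ M.H) ∧ ∀ s t, Ψ (s, t) = ∑ i, a i s * M.bf i t := by
  induction hΨ using Submodule.span_induction with
  | mem F hF =>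
    obtain ⟨g, hg, h, hh, rfl⟩ := hF
    refine ⟨fun i => M.b.repr ⟨h, hh⟩ i • g, fun i => Subalgebra.smul_mem _ hg _, fun s t => ?_⟩
    show g s * h t = _
    rw [M.repr_fun hh t, Finset.mul_sum]
    refine Finset.sum_congr rfl fun i _ => ?_
    show g s * (algebraMap (Zp p) Qb (M.b.repr ⟨h, hh⟩ i) * M.bf i t)
      = (M.b.repr ⟨h, hh⟩ i • g s) * M.bf i t
    rw [Algebra.smul_def]
    ring
  | zero =>
    exact ⟨fun _ => 0, fun _ => Subalgebra.zero_mem _, fun s t => by simp⟩
  | add F G _ _ hF hG =>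
    obtain ⟨a, ha, hsa⟩ := hF
    obtain ⟨a', ha', hsa'⟩ := hG
    refine ⟨fun i => a i + a' i, fun i => Subalgebra.add_mem _ (ha i) (ha' i), fun s t => ?_⟩
    rw [Pi.add_apply, hsa, hsa', ← Finset.sum_add_distrib]
    refine Finset.sum_congr rfl fun i _ => ?_
    show a i s * M.bf i t + a' i s * M.bf i t = (a i s + a' i s) * M.bf i t
    rw [add_mul]
  | smul c F _ hF =>
    obtain ⟨a, ha, hsa⟩ := hF
    refine ⟨fun i => c • a i, fun i => Subalgebra.smul_mem _ (ha i) _, fun s t => ?_⟩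
    rw [Pi.smul_apply, hsa, Finset.smul_sum]
    refine Finset.sum_congr rfl fun i _ => ?_
    show c • (a i s * M.bf i t) = (c • a i s) * M.bf i t
    rw [smul_mul_assoc]

include hQ in
/-- the quotient algebra is closed under the comultiplication. -/
theorem quot_hΔ {F : X ⧸ Y → Qb} (hF : F ∈ M.quotAlg Y) :
    (fun st : (X ⧸ Y) × (X ⧸ Y) => F (st.1 + st.2)) ∈ Submodule.span (Zp p)
      {Φ : (X ⧸ Y) × (X ⧸ Y) → Qb | ∃ G ∈ M.quotAlg Y, ∃ G' ∈ M.quotAlg Y,
        Φ = fun st => G st.1 * G' st.2} := by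
  classical
  obtain ⟨r, hr⟩ : ∃ r, r = Module.finrank (Zp p) (M.quotAlg Y) := ⟨_, rfl⟩
  let b' : Module.Basis (Fin r) (Zp p) (M.quotAlg Y) :=
    (Module.finBasis (Zp p) (M.quotAlg Y)).reindex (finCongr hr.symm)
  set f : X → Qb := fun x => F (QuotientAddGroup.mk x) with hf
  have hfH : f ∈ M.H := hF
  have hfinv : IsInv Y f := isInv_comp_mk Y F
  obtain ⟨a, ha, hsum⟩ := M.exists_left_coeffs (M.hΔ f hfH)
  -- the left coefficients are invariant
  have hainv : ∀ i, IsInv Y (a i) := by
    intro i s y hy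
    have h1 : ∑ j, (a j (s + y) - a j s) • M.bf j = 0 := by
      funext t
      simp only [Finset.sum_apply, Pi.smul_apply, smul_eq_mul, Pi.zero_apply, sub_mul,
        Finset.sum_sub_distrib]
      rw [← hsum (s + y) t, ← hsum s t]
      show f (s + y + t) - f (s + t) = 0
      rw [show s + y + t = s + t + y by abel, hfinv (s + t) y hy, sub_self]
    exact sub_eq_zero.1 (Fintype.linearIndependent_iff.1 M.hli _ h1 i)
  have hA : ∀ i, descend Y (a i) (hainv i) ∈ M.quotAlg Y := fun i =>
    M.descend_mem Y (ha i) (hainv i)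
  -- regroup along the basis of the quotient algebra
  set g : Fin r → X → Qb := fun k => ∑ i, b'.repr ⟨_, hA i⟩ k • M.bf i with hg
  have hgH : ∀ k, g k ∈ M.H := fun k =>
    Subalgebra.sum_mem _ fun i _ => Subalgebra.smul_mem _ (M.bf_mem i) _
  have hsum2 : ∀ s t, f (s + t) =
      ∑ k, ((b' k : M.quotAlg Y) : X ⧸ Y → Qb) (QuotientAddGroup.mk s) * g k t := by
    intro s t
    rw [show f (s + t) = f ((s, t).1 + (s, t).2) from rfl, hsum s t]
    have h1 : ∀ i, a i s = ∑ k, algebraMap (Zp p) Qb (b'.repr ⟨_, hA i⟩ k) *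
        ((b' k : M.quotAlg Y) : X ⧸ Y → Qb) (QuotientAddGroup.mk s) := fun i => by
      rw [← M.repr_fun_quot Y b' (hA i), descend_mk]
    simp only [h1, hg, Finset.sum_apply, Pi.smul_apply, Finset.sum_mul, Finset.mul_sum]
    rw [Finset.sum_comm]
    refine Finset.sum_congr rfl fun k _ => Finset.sum_congr rfl fun i _ => ?_
    rw [Algebra.smul_def]
    ring
  have hginv : ∀ k, IsInv Y (g k) := by
    intro k t y hy
    have h1 : ∑ j, (g j (t + y) - g j t) • ((b' j : M.quotAlg Y) : X ⧸ Y → Qb) = 0 := by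
      funext q
      obtain ⟨s, rfl⟩ := QuotientAddGroup.mk_surjective q
      simp only [Finset.sum_apply, Pi.smul_apply, smul_eq_mul, Pi.zero_apply, sub_mul,
        Finset.sum_sub_distrib]
      have e1 := hsum2 s (t + y)
      have e2 := hsum2 s t
      simp only [mul_comm (((b' _ : M.quotAlg Y) : X ⧸ Y → Qb) _)] at e1 e2
      rw [← e1, ← e2, ← add_assoc, hfinv (s + t) y hy, sub_self]
    exact sub_eq_zero.1 (Fintype.linearIndependent_iff.1
      (M.linearIndependent_quot Y actQ hQ b') _ h1 k)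
  have hG : ∀ k, descend Y (g k) (hginv k) ∈ M.quotAlg Y := fun k =>
    M.descend_mem Y (hgH k) (hginv k)
  have hfinal : (fun st : (X ⧸ Y) × (X ⧸ Y) => F (st.1 + st.2)) =
      ∑ k, fun st : (X ⧸ Y) × (X ⧸ Y) =>
        ((b' k : M.quotAlg Y) : X ⧸ Y → Qb) st.1 * descend Y (g k) (hginv k) st.2 := by
    funext st
    obtain ⟨q1, q2⟩ := st
    obtain ⟨s, rfl⟩ := QuotientAddGroup.mk_surjective q1
    obtain ⟨t, rfl⟩ := QuotientAddGroup.mk_surjective q2
    rw [Finset.sum_apply]
    show F (QuotientAddGroup.mk s + QuotientAddGroup.mk t) = _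
    rw [← QuotientAddGroup.mk_add]
    exact hsum2 s t
  rw [hfinal]
  exact Submodule.sum_mem _ fun k _ =>
    Submodule.subset_span ⟨_, (b' k).2, _, hG k, rfl⟩

include M hY hQ in
/-- **quotient of a function-level model** by a Galois-stable subgroup. -/
theorem exists_quot : Nonempty (FunModel p (X ⧸ Y) actQ) := by
  classical
  obtain ⟨r, hr⟩ : ∃ r, r = Module.finrank (Zp p) (M.quotAlg Y) := ⟨_, rfl⟩
  let b' : Module.Basis (Fin r) (Zp p) (M.quotAlg Y) :=
    (Module.finBasis (Zp p) (M.quotAlg Y)).reindex (finCongr hr.symm)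
  refine ⟨{ H := M.quotAlg Y, n := r, b := b', hli := M.linearIndependent_quot Y actQ hQ b',
            hcard := M.card_quot Y hY actQ hQ b', hΔ := fun F hF => M.quot_hΔ Y actQ hQ hF,
            hε := ?_, hS := ?_, hequiv := fun σ F hF q => M.quot_equivariant Y actQ hQ σ hF q }⟩
  · intro F hF
    exact M.hε _ hF
  · intro F hF
    exact M.hS _ hF

end Quot

end Fermat.Agent.S19x.FF.FunModel
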