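/-
P-S19 / block C leaf C1 (helper74): **Galois stable subgroups of finite flat points are finite flat
points** (`IsFFPoints.of_subgroup`, scheme-theoretic closure).

Given a finite flat cocommutative Hopf algebra `H` over `ℤ_(p)` with `H(ℚ̄) ≃ X` equivariantly, and a
`G_ℚ`-stable subgroup `Y ≤ X`, let `P ⊆ Hom(H, ℚ̄)` be the points in `Y` and `I_P` the ideal of
elements of `H` vanishing on `P`.  Then

* `H ⧸ I_P` embeds in `P → ℚ̄`, so it is torsion free, hence free (`ℤ_(p)` is a PID), hence flat;
* (Galois descent, `GaloisIndep`) an `ℤ_(p)`-basis of `H ⧸ I_P` has `ℚ̄`-independent evaluation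
  vectors, so `rank (H ⧸ I_P) ≤ #P`; with Dedekind independence of characters this gives
  `Hom(H ⧸ I_P, ℚ̄) = P` (`mem_of_forall_vanIdeal`);
* the same independence shows `(H ⧸ I_P) ⊗ (H ⧸ I_P) → (P × P → ℚ̄)` is injective, whence `I_P` is
  a Hopf ideal (`isHopfIdeal_vanIdeal`) because `P` is a subgroup;
* Mathlib's quotient Hopf algebra `H ⧸ I_P` then has points `P ≃ Y`.

Main result: `of_subgroup` (alias `of_addSubgroup`).  No primality of `p` is needed.
-/
import Mathlib
import Fermat.Agent.S19x.FF.GaloisIndep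
import Fermat.Agent.S19x.FF.RatLoc
import Fermat.Agent.S56x.Dict.FFPoints

set_option autoImplicit false
set_option linter.unusedSectionVars false
set_option linter.style.haveILetI false

open scoped TensorProduct
open WithConv

namespace Fermat.Agent.S19x.FF.OfSubgroup

open Fermat.Agent.S19x.FF.GaloisIndep

section Core

variable {R K Ω : Type*} [CommRing R] [IsDomain R] [IsPrincipalIdealRing R] [Field K]
  [Algebra R K] [IsFractionRing R K] [Field Ω] [Algebra K Ω] [Algebra R Ω] [IsScalarTower R K Ω]
  {H : Type*} [CommRing H] [Algebra R H] [Module.Finite R H]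

/-- Galois conjugate of a point. -/
def conjPt (σ : Ω ≃ₐ[K] Ω) (g : H →ₐ[R] Ω) : H →ₐ[R] Ω :=
  ((σ : Ω →ₐ[K] Ω).restrictScalars R).comp g

@[simp] theorem conjPt_apply (σ : Ω ≃ₐ[K] Ω) (g : H →ₐ[R] Ω) (h : H) :
    conjPt σ g h = σ (g h) := rfl

theorem conjPt_conjPt_inv (σ : Ω ≃ₐ[K] Ω) (g : H →ₐ[R] Ω) : conjPt σ (conjPt σ⁻¹ g) = g := by
  ext h
  simp only [conjPt_apply]
  exact σ.apply_symm_apply (g h)

variable (P : Set (H →ₐ[R] Ω))

/-- evaluation at the points of `P`. -/
def evalHom : H →ₐ[R] (P → Ω) := AlgHom.pi (fun z : P => (z : H →ₐ[R] Ω))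

@[simp] theorem evalHom_apply (h : H) (z : P) : evalHom P h z = (z : H →ₐ[R] Ω) h := rfl

/-- the ideal of elements vanishing at all points of `P`. -/
def vanIdeal : Ideal H := RingHom.ker (evalHom P)

theorem mem_vanIdeal {h : H} : h ∈ vanIdeal P ↔ ∀ z ∈ P, z h = 0 := by
  rw [vanIdeal, RingHom.mem_ker]
  constructor
  · intro h0 z hz
    exact congrFun h0 ⟨z, hz⟩
  · intro h0
    funext z
    exact h0 z.1 z.2

/-- the induced injection `H ⧸ I_P → (P → Ω)`. -/
def evalBar : H ⧸ vanIdeal P →ₐ[R] (P → Ω) := Ideal.kerLiftAlg (evalHom P)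

theorem evalBar_mk (h : H) (z : P) :
    evalBar P (Ideal.Quotient.mk _ h) z = (z : H →ₐ[R] Ω) h := rfl

theorem evalBar_injective : Function.Injective (evalBar P) := Ideal.kerLiftAlg_injective _

instance finite_quot : Module.Finite R (H ⧸ vanIdeal P) :=
  Module.Finite.of_surjective (Ideal.Quotient.mkₐ R (vanIdeal P)).toLinearMap
    (Ideal.Quotient.mkₐ_surjective R _)

variable (hinj : Function.Injective (algebraMap R Ω))

include hinj in
theorem isTorsionFree_quot : Module.IsTorsionFree R (H ⧸ vanIdeal P) where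
  isSMulRegular r hr x y hxy := by
    apply evalBar_injective P
    funext z
    have hxy' : r • x = r • y := hxy
    have h2 : r • evalBar P x = r • evalBar P y := by rw [← map_smul, ← map_smul, hxy']
    have h1 := congrFun h2 z
    rw [Pi.smul_apply, Pi.smul_apply, Algebra.smul_def, Algebra.smul_def] at h1
    have hr0 : algebraMap R Ω r ≠ 0 := by
      intro h0
      rw [← map_zero (algebraMap R Ω)] at h0
      exact hr.ne_zero (hinj h0)
    exact mul_left_cancel₀ hr0 h1

include hinj in
theorem free_quot : Module.Free R (H ⧸ vanIdeal P) := by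
  haveI := isTorsionFree_quot P hinj
  infer_instance

include hinj in
theorem flat_quot : Module.Flat R (H ⧸ vanIdeal P) := by
  haveI := isTorsionFree_quot P hinj
  infer_instance

/-- **Dedekind**: the evaluation vectors span all functions on a finite set of points. -/
theorem span_range_evalHom : Submodule.span Ω (Set.range (evalHom P)) = ⊤ := by
  classical
  haveI : Fintype P := Fintype.ofFinite P
  by_contra hne
  obtain ⟨φ, hφ0, hφ⟩ := Submodule.exists_le_ker_of_lt_top _ (lt_top_iff_ne_top.mpr hne)
  have hli : LinearIndependent Ω (fun z : P => ((z : H →ₐ[R] Ω) : H → Ω)) := by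
    have h0 := linearIndependent_monoidHom H Ω
    have hinj' : Function.Injective (fun z : P => (((z : H →ₐ[R] Ω) : H →* Ω))) := by
      intro z w hzw
      apply Subtype.ext
      apply AlgHom.ext
      intro h
      exact DFunLike.congr_fun hzw h
    exact h0.comp _ hinj'
  have key : ∑ z : P, φ (Pi.single z 1) • ((z : H →ₐ[R] Ω) : H → Ω) = 0 := by
    funext h
    have h1 : φ (evalHom P h) = 0 := hφ (Submodule.subset_span ⟨h, rfl⟩)
    rw [LinearMap.pi_apply_eq_sum_univ φ (evalHom P h)] at h1
    simp only [Finset.sum_apply, Pi.smul_apply, smul_eq_mul, Pi.zero_apply]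
    rw [← h1]
    refine Finset.sum_congr rfl fun z _ => ?_
    rw [evalHom_apply, mul_comm]
    congr 2
    funext w
    simp [Pi.single_apply, eq_comm]
  have hc := Fintype.linearIndependent_iff.mp hli _ key
  apply hφ0
  apply LinearMap.pi_ext
  intro z x
  have : (Pi.single z x : P → Ω) = x • Pi.single z 1 := by
    funext w
    simp [Pi.single_apply]
  rw [this, map_smul, hc z, smul_zero, LinearMap.zero_apply]

/-! ### Independence (Galois descent) -/

variable (hfix : ∀ ω : Ω, (∀ σ : Ω ≃ₐ[K] Ω, σ ω = ω) → ω ∈ Set.range (algebraMap K Ω))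
  (hstab : ∀ σ : Ω ≃ₐ[K] Ω, ∀ g ∈ P, conjPt σ g ∈ P)

include hfix hstab in
/-- an `R`-linearly independent family of `H ⧸ I_P` has `Ω`-linearly independent evaluation
vectors, when `P` is Galois stable. -/
theorem linearIndependent_evalBar {ι : Type*} (b : ι → H ⧸ vanIdeal P)
    (hb : LinearIndependent R b) : LinearIndependent Ω (fun i => evalBar P (b i)) := by
  have hR : LinearIndependent R (fun i => evalBar P (b i)) := by
    have := hb.map' (evalBar P).toLinearMap
      (LinearMap.ker_eq_bot.mpr (evalBar_injective P))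
    exact this
  have hK : LinearIndependent K (fun i => evalBar P (b i)) :=
    (LinearIndependent.iff_fractionRing R K).mp hR
  refine linearIndependent_of_equivariant hfix
    (fun σ (z : P) => (⟨conjPt σ z.1, hstab σ z.1 z.2⟩ : P))
    (fun σ z => Subtype.ext (conjPt_conjPt_inv σ z.1)) _ ?_ hK
  intro i σ z
  obtain ⟨h, hh⟩ := Ideal.Quotient.mk_surjective (b i)
  rw [← hh, evalBar_mk, evalBar_mk]
  rfl

/-! ### Spanning by lifts -/

/-- if the classes of `hh i` span `H ⧸ I_P` over `R` and all points of `Q` kill `I_P`, then the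
evaluation vectors of the `hh i` on `Q` span all functions on `Q`. -/
theorem span_evalHom_lifts {ι : Type*} (hh : ι → H)
    (hspan : Submodule.span R (Set.range fun i => (Ideal.Quotient.mk (vanIdeal P) (hh i))) = ⊤)
    (Q : Set (H →ₐ[R] Ω)) (hQ : ∀ g ∈ Q, ∀ a ∈ vanIdeal P, g a = 0) :
    Submodule.span Ω (Set.range fun i => evalHom Q (hh i)) = ⊤ := by
  rw [eq_top_iff, ← span_range_evalHom Q, Submodule.span_le]
  rintro _ ⟨h, rfl⟩
  -- `mk h` is an `R`-combination of the `mk (hh i)`
  have hmem : Ideal.Quotient.mk (vanIdeal P) h ∈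
      Submodule.span R (Set.range fun i => (Ideal.Quotient.mk (vanIdeal P) (hh i))) := by
    rw [hspan]; trivial
  -- the set of `h` whose evaluation lies in the span
  let W : Submodule R (H ⧸ vanIdeal P) :=
    { carrier := {x | ∀ h : H, Ideal.Quotient.mk (vanIdeal P) h = x →
        evalHom Q h ∈ Submodule.span Ω (Set.range fun i => evalHom Q (hh i))}
      add_mem' := by
        intro x y hx hy h hh'
        obtain ⟨a, rfl⟩ := Ideal.Quotient.mk_surjective x
        obtain ⟨c, rfl⟩ := Ideal.Quotient.mk_surjective y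
        have hd : h - (a + c) ∈ vanIdeal P := by
          rw [← Ideal.Quotient.eq, hh', map_add]
        have he : evalHom Q h = evalHom Q a + evalHom Q c := by
          funext z
          have := hQ z.1 z.2 _ hd
          rw [map_sub, sub_eq_zero] at this
          simp only [evalHom_apply, Pi.add_apply, this, map_add]
        rw [he]
        exact add_mem (hx a rfl) (hy c rfl)
      zero_mem' := by
        intro h hh'
        have hd : h ∈ vanIdeal P := Ideal.Quotient.eq_zero_iff_mem.mp hh'
        have he : evalHom Q h = 0 := by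
          funext z
          exact hQ z.1 z.2 _ hd
        rw [he]
        exact zero_mem _
      smul_mem' := by
        intro r x hx h hh'
        obtain ⟨a, rfl⟩ := Ideal.Quotient.mk_surjective x
        have hd : h - r • a ∈ vanIdeal P := by
          rw [← Ideal.Quotient.eq, hh']
          rfl
        have he : evalHom Q h = algebraMap R Ω r • evalHom Q a := by
          funext z
          have := hQ z.1 z.2 _ hd
          rw [map_sub, sub_eq_zero] at this
          rw [evalHom_apply, this, Pi.smul_apply, evalHom_apply, map_smul, Algebra.smul_def,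
            smul_eq_mul]
        rw [he]
        exact Submodule.smul_mem _ _ (hx a rfl) }
  have hle : Submodule.span R (Set.range fun i => (Ideal.Quotient.mk (vanIdeal P) (hh i))) ≤ W := by
    rw [Submodule.span_le]
    rintro _ ⟨i, rfl⟩ h hh'
    have hd : h - hh i ∈ vanIdeal P := Ideal.Quotient.eq.mp hh'
    have he : evalHom Q h = evalHom Q (hh i) := by
      funext z
      have := hQ z.1 z.2 _ hd
      rw [map_sub, sub_eq_zero] at this
      simp only [evalHom_apply, this]
    rw [he]
    exact Submodule.subset_span ⟨i, rfl⟩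
  exact hle hmem h rfl

/-! ### Points killing `I_P` lie in `P` -/

include hinj hfix hstab in
/-- **the points of `H ⧸ I_P` are exactly `P`** (for a Galois stable `P`). -/
theorem mem_of_forall_vanIdeal (g₀ : H →ₐ[R] Ω) (hg₀ : ∀ a ∈ vanIdeal P, g₀ a = 0) : g₀ ∈ P := by
  classical
  by_contra hnot
  haveI := free_quot P hinj
  let b := Module.Free.chooseBasis R (H ⧸ vanIdeal P)
  haveI : Fintype P := Fintype.ofFinite P
  have h1 : Fintype.card (Module.Free.ChooseBasisIndex R (H ⧸ vanIdeal P)) ≤ Fintype.card P := by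
    have hli := linearIndependent_evalBar P hfix hstab b b.linearIndependent
    have := hli.fintype_card_le_finrank
    rwa [Module.finrank_fintype_fun_eq_card] at this
  choose hh hhb using fun i => Ideal.Quotient.mk_surjective (b i)
  let Q : Set (H →ₐ[R] Ω) := insert g₀ P
  haveI : Fintype Q := Fintype.ofFinite Q
  have hspanQ := span_evalHom_lifts P hh (by simp_rw [hhb]; exact b.span_eq) Q (by
    intro g hg a ha
    rcases hg with rfl | hg
    · exact hg₀ a ha
    · exact (mem_vanIdeal P).mp ha g hg)
  have h2 : Fintype.card Q ≤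
      Fintype.card (Module.Free.ChooseBasisIndex R (H ⧸ vanIdeal P)) := by
    have := finrank_range_le_card (R := Ω) (fun i => evalHom Q (hh i))
    rw [Set.finrank, hspanQ, finrank_top, Module.finrank_fintype_fun_eq_card] at this
    exact this
  have h3 : Fintype.card Q = Fintype.card P + 1 := Set.card_insert P hnot
  omega

end Core

section Hopf

variable {R K Ω : Type*} [CommRing R] [IsDomain R] [IsPrincipalIdealRing R] [Field K]
  [Algebra R K] [IsFractionRing R K] [Field Ω] [Algebra K Ω] [Algebra R Ω] [IsScalarTower R K Ω]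
  {H : Type*} [CommRing H] [HopfAlgebra R H] [Module.Finite R H]
  (P : Set (H →ₐ[R] Ω))
  (hinj : Function.Injective (algebraMap R Ω))
  (hfix : ∀ ω : Ω, (∀ σ : Ω ≃ₐ[K] Ω, σ ω = ω) → ω ∈ Set.range (algebraMap K Ω))
  (hstab : ∀ σ : Ω ≃ₐ[K] Ω, ∀ g ∈ P, conjPt σ g ∈ P)

theorem evalBar_smul (r : R) (x : H ⧸ vanIdeal P) (z : P) :
    evalBar P (r • x) z = algebraMap R Ω r * evalBar P x z := by
  rw [map_smul, Pi.smul_apply, Algebra.smul_def]

/-- the pairing `(H ⧸ I) ⊗ (H ⧸ I) → (P × P → Ω)`. -/
noncomputable def pairMap : (H ⧸ vanIdeal P) ⊗[R] (H ⧸ vanIdeal P) →ₗ[R] (P × P → Ω) :=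
  TensorProduct.lift
    (LinearMap.mk₂ R (fun x y => fun w : P × P => evalBar P x w.1 * evalBar P y w.2)
      (fun x x' y => by funext w; simp only [map_add, Pi.add_apply, add_mul])
      (fun r x y => by
        funext w
        show evalBar P (r • x) w.1 * evalBar P y w.2 =
          (r • fun w : P × P => evalBar P x w.1 * evalBar P y w.2) w
        rw [evalBar_smul, Pi.smul_apply, Algebra.smul_def]
        ring)
      (fun x y y' => by funext w; simp only [map_add, Pi.add_apply, mul_add])
      (fun r x y => by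
        funext w
        show evalBar P x w.1 * evalBar P (r • y) w.2 =
          (r • fun w : P × P => evalBar P x w.1 * evalBar P y w.2) w
        rw [evalBar_smul, Pi.smul_apply, Algebra.smul_def]
        ring))

@[simp] theorem pairMap_tmul (x y : H ⧸ vanIdeal P) (w : P × P) :
    pairMap P (x ⊗ₜ[R] y) w = evalBar P x w.1 * evalBar P y w.2 := rfl

include hinj hfix hstab in
theorem pairMap_injective : Function.Injective (pairMap P) := by
  classical
  haveI := free_quot P hinj
  let b := Module.Free.chooseBasis R (H ⧸ vanIdeal P)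
  have hΩ := linearIndependent_evalBar P hfix hstab b b.linearIndependent
  rw [← LinearMap.ker_eq_bot, LinearMap.ker_eq_bot']
  intro t ht
  -- coordinates of `t`
  have hrepr := (b.tensorProduct b).sum_repr t
  set c := (b.tensorProduct b).repr t with hc
  have hval : ∀ w : P × P, ∑ ij : _ × _, algebraMap R Ω (c ij) *
      (evalBar P (b ij.1) w.1 * evalBar P (b ij.2) w.2) = 0 := by
    intro w
    have h1 := congrFun ht w
    rw [← hrepr, map_sum, Finset.sum_apply, Pi.zero_apply] at h1
    rw [← h1]
    refine Finset.sum_congr rfl fun ij _ => ?_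
    rw [map_smul, Pi.smul_apply, Algebra.smul_def, Module.Basis.tensorProduct_apply, pairMap_tmul]
  -- first use independence in the first variable
  have hstep1 : ∀ (z₂ : P) i, ∑ j, algebraMap R Ω (c (i, j)) * evalBar P (b j) z₂ = 0 := by
    intro z₂
    apply Fintype.linearIndependent_iff.mp hΩ
    funext z₁
    have := hval (z₁, z₂)
    rw [Fintype.sum_prod_type] at this
    simp only [Finset.sum_apply, Pi.smul_apply, smul_eq_mul, Pi.zero_apply]
    rw [← this]
    refine Finset.sum_congr rfl fun i _ => ?_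
    rw [Finset.sum_mul]
    refine Finset.sum_congr rfl fun j _ => ?_
    ring
  -- then in the second
  have hstep2 : ∀ i j, algebraMap R Ω (c (i, j)) = 0 := by
    intro i
    apply Fintype.linearIndependent_iff.mp hΩ
    funext z₂
    have := hstep1 z₂ i
    simp only [Finset.sum_apply, Pi.smul_apply, smul_eq_mul, Pi.zero_apply]
    exact this
  have hc0 : ∀ ij, c ij = 0 := by
    rintro ⟨i, j⟩
    have := hstep2 i j
    rw [← map_zero (algebraMap R Ω)] at this
    exact hinj this
  rw [← hrepr]
  refine Finset.sum_eq_zero fun ij _ => ?_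
  rw [hc0 ij, zero_smul]

theorem pairMap_map_mk (t : H ⊗[R] H) (z₁ z₂ : P) :
    pairMap P (TensorProduct.map (Ideal.Quotient.mkₐ R (vanIdeal P)).toLinearMap
      (Ideal.Quotient.mkₐ R (vanIdeal P)).toLinearMap t) (z₁, z₂) =
    Algebra.TensorProduct.lift (z₁ : H →ₐ[R] Ω) (z₂ : H →ₐ[R] Ω) (fun _ _ => Commute.all _ _) t := by
  induction t using TensorProduct.induction_on with
  | zero => simp only [map_zero, Pi.zero_apply]
  | tmul a b =>
    rw [TensorProduct.map_tmul, pairMap_tmul, Algebra.TensorProduct.lift_tmul]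
    rfl
  | add x y hx hy => simp only [map_add, Pi.add_apply, hx, hy]

omit [IsDomain R] [IsPrincipalIdealRing R] [Module.Finite R H] in
/-- composing with the antipode gives the convolution inverse. -/
theorem comp_antipode_mul (f : H →ₐ[R] Ω) :
    toConv (f.comp (HopfAlgebra.antipodeAlgHom R H)) * toConv f = 1 := by
  apply WithConv.ofConv_injective
  apply AlgHom.ext
  intro x
  have h1 := AlgHom.convMul_apply (toConv (f.comp (HopfAlgebra.antipodeAlgHom R H))) (toConv f) x
  refine h1.trans ?_
  rw [← (Coalgebra.Repr.arbitrary R x).eq, map_sum]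
  simp only [Algebra.TensorProduct.lift_tmul, AlgHom.comp_apply]
  have h2 : ∀ i, f ((HopfAlgebra.antipodeAlgHom R H) ((Coalgebra.Repr.arbitrary R x).left i)) *
      f ((Coalgebra.Repr.arbitrary R x).right i) =
      f (HopfAlgebra.antipode R ((Coalgebra.Repr.arbitrary R x).left i) *
        (Coalgebra.Repr.arbitrary R x).right i) := by
    intro i
    rw [map_mul]
    rfl
  simp only [h2]
  rw [← map_sum, HopfAlgebra.sum_antipode_mul_eq_algebraMap_counit, AlgHom.commutes]
  rfl

variable (hone : (1 : WithConv (H →ₐ[R] Ω)).ofConv ∈ P)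
  (hmul : ∀ f ∈ P, ∀ g ∈ P, (toConv f * toConv g).ofConv ∈ P)
  (hinv : ∀ f ∈ P, f.comp (HopfAlgebra.antipodeAlgHom R H) ∈ P)

include hinj hfix hstab hone hmul hinv in
/-- the vanishing ideal of a Galois stable subgroup of points is a Hopf ideal. -/
theorem isHopfIdeal_vanIdeal : (vanIdeal P).IsHopfIdeal R where
  counit_eq_zero := by
    intro x hx
    have hx' : x ∈ vanIdeal P := hx
    have h0 := (mem_vanIdeal P).mp hx' _ hone
    have h1 : algebraMap R Ω (Coalgebra.counit x) = 0 := h0
    rw [← map_zero (algebraMap R Ω)] at h1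
    exact hinj h1
  map_mkQ_comul_eq_zero := by
    intro x hx
    have hx' : x ∈ vanIdeal P := hx
    change TensorProduct.map (Ideal.Quotient.mkₐ R (vanIdeal P)).toLinearMap
      (Ideal.Quotient.mkₐ R (vanIdeal P)).toLinearMap (Coalgebra.comul x) = 0
    apply pairMap_injective P hinj hfix hstab
    rw [map_zero]
    funext w
    obtain ⟨z₁, z₂⟩ := w
    rw [pairMap_map_mk, Pi.zero_apply]
    have h0 := (mem_vanIdeal P).mp hx' _ (hmul z₁.1 z₁.2 z₂.1 z₂.2)
    rw [← h0]
    exact (AlgHom.convMul_apply (toConv z₁.1) (toConv z₂.1) x).symm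
  antipode_mem := by
    intro x hx
    rw [mem_vanIdeal]
    intro z hz
    exact (mem_vanIdeal P).mp hx _ (hinv z hz)

/-- cocommutativity passes to the quotient by a Hopf ideal. -/
theorem isCocomm_quot (I : Ideal H) [I.IsHopfIdeal R] [Coalgebra.IsCocomm R H] :
    Coalgebra.IsCocomm R (H ⧸ I) where
  comm_comp_comul := by
    apply LinearMap.ext
    intro y
    obtain ⟨x, rfl⟩ := Ideal.Quotient.mk_surjective y
    rw [LinearMap.comp_apply, Bialgebra.Quotient.comul_mk]
    rw [LinearEquiv.coe_coe, ← TensorProduct.map_comm, Coalgebra.comm_comul]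

end Hopf

/-! ### The theorem -/

section Main

open Fermat.Agent.S56x.Dict.FFPoints Fermat.Agent.S19x.FF

local notation "Γℚ" => (AlgebraicClosure ℚ ≃ₐ[ℚ] AlgebraicClosure ℚ)
local notation "Qb" => AlgebraicClosure ℚ
local notation "Zp" p => GaloisRep.ratLocalizedAt p

/-- **Galois stable subgroups of the points of a finite flat group scheme over `ℤ_(p)` are again
the points of a finite flat group scheme** (scheme-theoretic closure). -/
theorem of_subgroup {p : ℕ} {X : Type} [AddCommGroup X] {act : Γℚ → X → X}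
    (h : IsFFPoints p X act) (Y : AddSubgroup X) (hY : ∀ σ, ∀ y ∈ Y, act σ y ∈ Y) :
    IsFFPoints p ↥Y (fun σ y => ⟨act σ y.1, hY σ y.1 y.2⟩) := by
  obtain ⟨H, i1, i2, hfin, hflat, hco, e, hadd, heq⟩ := h
  let P : Set (H →ₐ[Zp p] Qb) := {g | e (toConv g) ∈ Y}
  have hinj : Function.Injective (algebraMap (Zp p) Qb) := RatLoc.algebraMap_injective p
  haveI hgal : IsGalois ℚ Qb := by
    have h : (DivisionRing.toRatAlgebra : Algebra ℚ (AlgebraicClosure ℚ)) =
        AlgebraicClosure.instAlgebra ℚ := Subsingleton.elim _ _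
    rw [h]
    infer_instance
  have hfix : ∀ ω : Qb, (∀ σ : Γℚ, σ ω = ω) → ω ∈ Set.range (algebraMap ℚ Qb) :=
    fun ω hω => (InfiniteGalois.mem_range_algebraMap_iff_fixed ω).mpr hω
  have hstab : ∀ σ : Γℚ, ∀ g ∈ P, conjPt σ g ∈ P := by
    intro σ g hg
    show e (toConv (conjPt σ g)) ∈ Y
    rw [heq σ (toConv g) (toConv (conjPt σ g)) (fun h => rfl)]
    exact hY σ _ hg
  have he1 : e 1 = 0 := by
    have h1 := hadd 1 1
    rw [mul_one] at h1
    exact left_eq_add.mp h1
  have hone : (1 : WithConv (H →ₐ[Zp p] Qb)).ofConv ∈ P := by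
    show e (toConv (ofConv 1)) ∈ Y
    rw [toConv_ofConv, he1]
    exact Y.zero_mem
  have hmul : ∀ f ∈ P, ∀ g ∈ P, (toConv f * toConv g).ofConv ∈ P := by
    intro f hf g hg
    show e (toConv (ofConv _)) ∈ Y
    rw [toConv_ofConv, hadd]
    exact Y.add_mem hf hg
  have hinv : ∀ f ∈ P, f.comp (HopfAlgebra.antipodeAlgHom (Zp p) H) ∈ P := by
    intro f hf
    show e (toConv _) ∈ Y
    have h2 : e (toConv (f.comp (HopfAlgebra.antipodeAlgHom (Zp p) H))) = - e (toConv f) := by
      have h3 := hadd (toConv (f.comp (HopfAlgebra.antipodeAlgHom (Zp p) H))) (toConv f)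
      rw [comp_antipode_mul, he1] at h3
      exact eq_neg_of_add_eq_zero_left h3.symm
    rw [h2]
    exact Y.neg_mem hf
  haveI := isHopfIdeal_vanIdeal P hinj hfix hstab hone hmul hinv
  haveI := isCocomm_quot (R := Zp p) (vanIdeal P)
  have hmemP : ∀ g : (H ⧸ vanIdeal P) →ₐ[Zp p] Qb,
      g.comp (Ideal.Quotient.mkₐ (Zp p) (vanIdeal P)) ∈ P := by
    intro g
    refine mem_of_forall_vanIdeal P hinj hfix hstab _ fun a ha => ?_
    rw [AlgHom.comp_apply, Ideal.Quotient.mkₐ_eq_mk, Ideal.Quotient.eq_zero_iff_mem.mpr ha,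
      map_zero]
  let e' : WithConv ((H ⧸ vanIdeal P) →ₐ[Zp p] Qb) ≃ Y :=
    { toFun := fun g => ⟨e (toConv (g.ofConv.comp (Ideal.Quotient.mkₐ (Zp p) (vanIdeal P)))),
        hmemP g.ofConv⟩
      invFun := fun y => toConv (Ideal.Quotient.liftₐ (vanIdeal P) (e.symm y.1).ofConv
        (fun a ha => (mem_vanIdeal P).mp ha _ (by
          show e (toConv (ofConv (e.symm y.1))) ∈ Y
          rw [toConv_ofConv, Equiv.apply_symm_apply]
          exact y.2)))
      left_inv := by
        intro g
        apply WithConv.ofConv_injective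
        apply Ideal.Quotient.algHom_ext
        apply AlgHom.ext
        intro a
        simp only [ofConv_toConv, AlgHom.comp_apply, Ideal.Quotient.mkₐ_eq_mk,
          Ideal.Quotient.liftₐ_apply, Equiv.symm_apply_apply]
        rfl
      right_inv := by
        intro y
        apply Subtype.ext
        show e (toConv ((Ideal.Quotient.liftₐ (vanIdeal P) (e.symm y.1).ofConv _).comp
          (Ideal.Quotient.mkₐ (Zp p) (vanIdeal P)))) = y.1
        rw [Ideal.Quotient.liftₐ_comp, toConv_ofConv, Equiv.apply_symm_apply] }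
  refine ⟨H ⧸ vanIdeal P, inferInstance, inferInstance, inferInstance, flat_quot P hinj,
    inferInstance, e', fun f g => ?_, fun σ f g hfg => ?_⟩
  · apply Subtype.ext
    show e (toConv ((f * g).ofConv.comp (Ideal.Quotient.mkₐ (Zp p) (vanIdeal P)))) =
      e (toConv (f.ofConv.comp (Ideal.Quotient.mkₐ (Zp p) (vanIdeal P)))) +
      e (toConv (g.ofConv.comp (Ideal.Quotient.mkₐ (Zp p) (vanIdeal P))))
    rw [← hadd]
    congr 1
    apply WithConv.ofConv_injective
    exact AlgHom.convMul_comp_bialgHom_distrib f g (Bialgebra.Quotient.mkBialgHom (vanIdeal P))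
  · apply Subtype.ext
    show e (toConv (g.ofConv.comp (Ideal.Quotient.mkₐ (Zp p) (vanIdeal P)))) =
      act σ (e (toConv (f.ofConv.comp (Ideal.Quotient.mkₐ (Zp p) (vanIdeal P)))))
    exact heq σ _ _ fun h => hfg (Ideal.Quotient.mk _ h)

/-- the same statement under the name used on the block C board. -/
theorem of_addSubgroup {p : ℕ} {X : Type} [AddCommGroup X] {act : Γℚ → X → X}
    (h : IsFFPoints p X act) (Y : AddSubgroup X) (hY : ∀ σ, ∀ y ∈ Y, act σ y ∈ Y) :
    IsFFPoints p ↥Y (fun σ y => ⟨act σ y, hY σ y y.2⟩) :=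
  of_subgroup h Y hY

end Main

end Fermat.Agent.S19x.FF.OfSubgroup
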