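/-
P-S19, BLOCK C, leaf C2 (helper12; independent SECOND proof, function-level route):
`IsFFPoints.of_quotient`.

The quotient of the group of points `X` of a finite flat group scheme over `ℤ_(p)` by a
Galois-stable subgroup `Y` is again the group of points of a finite flat group scheme.

Route: `FunDatum.exists_isFunOrder` turns `IsFFPoints p X act` into a function-level Hopf order
`Hf ⊆ (X → ℚ̄)`; the quotient order is `quotOrder Y Hf = {F : X ⧸ Y → ℚ̄ | F ∘ mk ∈ Hf}`.
* rank: the trace `trY Y f = Σ_{y ∈ Y} f (· + y)` maps `Hf` into itself (the coefficients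
  `Σ_{y ∈ Y} k y`, `k ∈ Hf`, are Galois-fixed and integral over `ℤ_(p)`, hence lie in `ℤ_(p)`),
  so the quotient order spans `X ⧸ Y → ℚ̄`;
* comultiplication: the `Y`-invariants `A ⊆ Hf` are a saturated submodule, hence the image of a
  projection `π`; with `T` the trace, `(T ⊗ T) z = |Y|² z` for `z = Δ f`, `f` invariant, and
  `π T = T` give `(π ⊗ π) z = z`.
Then `FunDatum.IsFunOrder.isFFPoints` (helper57's `HopfOrder.exists_hopfAlgebra`).
-/
import Mathlib
import Fermat.Agent.S19x.FF.FunDatum

set_option autoImplicit false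
set_option linter.style.haveILetI false
set_option linter.unusedSectionVars false

noncomputable section

namespace Fermat.Agent.S19x.FF.QuotientFun

open Fermat.Agent.S56x.Dict.FFPoints Fermat.Agent.S19x.HopfOrder Fermat.Agent.S19x.FF.FunDatum
open scoped TensorProduct

local notation "Γℚ" => (AlgebraicClosure ℚ ≃ₐ[ℚ] AlgebraicClosure ℚ)
local notation "Qb" => AlgebraicClosure ℚ
local notation "Zp" p => GaloisRep.ratLocalizedAt p

/-! ### Generic algebra -/

/-- a saturated submodule of a finite module over a PID is the image of a projection. -/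
theorem exists_proj {R M : Type*} [CommRing R] [IsDomain R] [IsPrincipalIdealRing R]
    [AddCommGroup M] [Module R M] [Module.Finite R M] (A : Submodule R M)
    (hsat : ∀ (r : R) (m : M), r ≠ 0 → r • m ∈ A → m ∈ A) :
    ∃ π : M →ₗ[R] M, (∀ m, π m ∈ A) ∧ ∀ a ∈ A, π a = a := by
  haveI : Module.IsTorsionFree R (M ⧸ A) := Module.IsTorsionFree.of_smul_eq_zero (fun r q hq => by
    induction q using Submodule.Quotient.induction_on with
    | _ m =>
      by_cases hr : r = 0
      · exact Or.inl hr
      · right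
        rw [← Submodule.Quotient.mk_smul, Submodule.Quotient.mk_eq_zero] at hq
        exact (Submodule.Quotient.mk_eq_zero A).mpr (hsat r m hr hq))
  haveI : Module.Free R (M ⧸ A) := Module.free_of_finite_type_torsion_free'
  obtain ⟨s, hs⟩ := Module.projective_lifting_property A.mkQ LinearMap.id
    (Submodule.mkQ_surjective A)
  refine ⟨LinearMap.id - s.comp A.mkQ, fun m => ?_, fun a ha => ?_⟩
  · rw [← Submodule.Quotient.mk_eq_zero A]
    have h1 := LinearMap.congr_fun hs (A.mkQ m)
    simp only [LinearMap.comp_apply, LinearMap.id_apply, Submodule.mkQ_apply] at h1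
    simp only [LinearMap.sub_apply, LinearMap.id_apply, LinearMap.comp_apply, Submodule.mkQ_apply,
      Submodule.Quotient.mk_sub, h1, sub_self]
  · have h0 : A.mkQ a = 0 := (Submodule.Quotient.mk_eq_zero A).mpr ha
    simp only [LinearMap.sub_apply, LinearMap.id_apply, LinearMap.comp_apply, h0, map_zero,
      sub_zero]

/-- an element of `ℚ̄` which is Galois-fixed and integral over `ℤ_(p)` lies in `ℤ_(p)`. -/
theorem exists_eq_of_fixed_of_isIntegral {p : ℕ} {a : Qb} (hfix : ∀ σ : Γℚ, σ a = a)
    (hint : IsIntegral (Zp p) a) : ∃ r : Zp p, algebraMap (Zp p) Qb r = a := by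
  haveI : Algebra.IsAlgebraic ℚ Qb := AlgebraicClosure.isAlgebraic ℚ
  haveI : IsAlgClosure ℚ Qb := ⟨inferInstance, inferInstance⟩
  haveI : Normal ℚ Qb := IsAlgClosure.normal ℚ Qb
  haveI : IsGalois ℚ Qb := ⟨⟩
  obtain ⟨q, rfl⟩ := (InfiniteGalois.mem_range_algebraMap_iff_fixed a).mpr hfix
  have hq : IsIntegral (Zp p) q :=
    (isIntegral_algebraMap_iff (algebraMap ℚ Qb).injective).mp hint
  obtain ⟨r, hr⟩ := IsIntegrallyClosed.isIntegral_iff.mp hq
  exact ⟨r, by rw [← hr]; rfl⟩


/-! ### Basic facts on a function-level order -/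

section Facts

variable {p : ℕ} {X : Type} [AddCommGroup X] [Finite X] {act : Γℚ → X → X}
  {Hf : Subalgebra (Zp p) (X → Qb)}

/-- the `ℚ̄`-span of a function-level order is everything. -/
theorem span_eq_top (h : IsFunOrder p act Hf) :
    Submodule.span Qb ((Hf : Set (X → Qb))) = ⊤ := by
  obtain ⟨n, b, hli, hn⟩ := h.basis
  haveI := Fintype.ofFinite X
  have hcard : Fintype.card (Fin n) = Module.finrank Qb (X → Qb) := by
    rw [Module.finrank_fintype_fun_eq_card, Fintype.card_fin, hn, Nat.card_eq_fintype_card]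
  have h1 := hli.span_eq_top_of_card_eq_finrank' hcard
  rw [eq_top_iff, ← h1]
  refine Submodule.span_mono ?_
  rintro _ ⟨i, rfl⟩
  exact (b i).2

/-- a function-level order separates the points. -/
theorem separates (h : IsFunOrder p act Hf) {x x' : X} (hx : x ≠ x') :
    ∃ f ∈ Hf, f x ≠ f x' := by
  classical
  by_contra hcon
  simp only [not_exists, not_and, not_not] at hcon
  have h1 : ∀ g ∈ Submodule.span Qb ((Hf : Set (X → Qb))), g x = g x' := by
    intro g hg
    induction hg using Submodule.span_induction with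
    | mem f hf => exact hcon f hf
    | zero => rfl
    | add f g _ _ hf hg => simp [hf, hg]
    | smul c f _ hf => simp [hf]
  have h2 := h1 (Pi.single x 1) (by rw [span_eq_top h]; trivial)
  rw [Pi.single_eq_same, Pi.single_eq_of_ne (Ne.symm hx)] at h2
  exact one_ne_zero h2

theorem act_act_inv (h : IsFunOrder p act Hf) (σ : Γℚ) (x : X) : act σ (act σ⁻¹ x) = x := by
  by_contra hne
  obtain ⟨f, hf, hfx⟩ := separates h hne
  apply hfx
  rw [h.equivariant f hf, h.equivariant f hf]
  simp

theorem act_inv_act (h : IsFunOrder p act Hf) (σ : Γℚ) (x : X) : act σ⁻¹ (act σ x) = x := by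
  have := act_act_inv h σ⁻¹ x
  rwa [inv_inv] at this

/-- the values of the functions of a function-level order are integral. -/
theorem isIntegral_apply (h : IsFunOrder p act Hf) {f : X → Qb} (hf : f ∈ Hf) (x : X) :
    IsIntegral (Zp p) (f x) := by
  obtain ⟨n, b, -, -⟩ := h.basis
  haveI : Module.Finite (Zp p) Hf := Module.Finite.of_basis b
  have h1 : IsIntegral (Zp p) (⟨f, hf⟩ : Hf) := Algebra.IsIntegral.isIntegral _
  have h2 := h1.map ((Pi.evalAlgHom (Zp p) (fun _ : X => Qb) x).comp Hf.val)
  exact h2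

end Facts


/-! ### The trace over a Galois-stable subgroup -/

section Trace

variable {p : ℕ} {X : Type} [AddCommGroup X] [Finite X] {act : Γℚ → X → X}
  {Hf : Subalgebra (Zp p) (X → Qb)} (Y : AddSubgroup X) [Fintype Y]

/-- the trace of a function over the subgroup `Y`. -/
def trY (f : X → Qb) : X → Qb := fun x => ∑ y : Y, f (x + y)

theorem trY_apply (f : X → Qb) (x : X) : trY Y f x = ∑ y : Y, f (x + y) := rfl

theorem trY_add_mem (f : X → Qb) (x y : X) (hy : y ∈ Y) : trY Y f (x + y) = trY Y f x := by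
  rw [trY_apply, trY_apply]
  exact Fintype.sum_equiv (Equiv.addLeft (⟨y, hy⟩ : Y)) _ _ (fun y' => by
    simp [add_assoc])

theorem sum_fixed (h : IsFunOrder p act Hf) (hY : ∀ σ, ∀ y ∈ Y, act σ y ∈ Y) {k : X → Qb}
    (hk : k ∈ Hf) (σ : Γℚ) : σ (∑ y : Y, k y) = ∑ y : Y, k y := by
  rw [map_sum]
  let eσ : Y ≃ Y :=
    { toFun := fun y => ⟨act σ y, hY σ y y.2⟩
      invFun := fun y => ⟨act σ⁻¹ y, hY σ⁻¹ y y.2⟩
      left_inv := fun y => Subtype.ext (act_inv_act h σ y)
      right_inv := fun y => Subtype.ext (act_act_inv h σ y) }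
  exact Fintype.sum_equiv eσ _ _ (fun y => (h.equivariant k hk σ y).symm)

/-- the trace of an element of a function-level order lies in the order. -/
theorem trY_mem (h : IsFunOrder p act Hf) (hY : ∀ σ, ∀ y ∈ Y, act σ y ∈ Y) {f : X → Qb}
    (hf : f ∈ Hf) : trY Y f ∈ Hf := by
  have key : ∀ F ∈ Submodule.span (Zp p)
      {F : X × X → Qb | ∃ g ∈ Hf, ∃ k ∈ Hf, F = fun st => g st.1 * k st.2},
      (fun x => ∑ y : Y, F (x, (y : X))) ∈ Hf := by
    intro F hF
    induction hF using Submodule.span_induction with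
    | mem F hF =>
      obtain ⟨g, hg, k, hk, rfl⟩ := hF
      obtain ⟨r, hr⟩ := exists_eq_of_fixed_of_isIntegral (p := p) (a := ∑ y : Y, k y)
        (sum_fixed Y h hY hk) (IsIntegral.sum _ (fun y _ => isIntegral_apply h hk y))
      have : (fun x => ∑ y : Y, g x * k y) = r • g := by
        funext x
        rw [← Finset.mul_sum, ← hr, Pi.smul_apply, Algebra.smul_def, mul_comm]
      simp only
      rw [this]
      exact Hf.smul_mem hg r
    | zero =>
      have : (fun x : X => ∑ y : Y, (0 : X × X → Qb) (x, (y : X))) = 0 := by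
        funext x
        simp
      rw [this]
      exact Hf.zero_mem
    | add F G _ _ hF hG =>
      have : (fun x : X => ∑ y : Y, (F + G) (x, (y : X))) =
          (fun x => ∑ y : Y, F (x, (y : X))) + (fun x => ∑ y : Y, G (x, (y : X))) := by
        funext x
        simp [Finset.sum_add_distrib]
      rw [this]
      exact Hf.add_mem hF hG
    | smul r F _ hF =>
      have : (fun x : X => ∑ y : Y, (r • F) (x, (y : X))) =
          r • (fun x => ∑ y : Y, F (x, (y : X))) := by
        funext x
        simp [Finset.smul_sum]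
      rw [this]
      exact Hf.smul_mem hF r
  exact key _ (h.comul f hf)

end Trace


/-! ### The quotient order -/

section Quot

variable {p : ℕ} {X : Type} [AddCommGroup X] [Finite X] {act : Γℚ → X → X}
  {Hf : Subalgebra (Zp p) (X → Qb)} (Y : AddSubgroup X)

/-- a `Y`-invariant function descends to the quotient. -/
def descend (g : X → Qb) (hg : ∀ x y : X, y ∈ Y → g (x + y) = g x) : X ⧸ Y → Qb :=
  Quotient.lift g (fun a b hab => by
    have h1 : -a + b ∈ Y := QuotientAddGroup.leftRel_apply.mp hab
    have h2 := hg a (-a + b) h1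
    rw [← h2]
    congr 1
    abel)

@[simp] theorem descend_mk (g : X → Qb) (hg : ∀ x y : X, y ∈ Y → g (x + y) = g x) (x : X) :
    descend Y g hg (QuotientAddGroup.mk x) = g x := rfl

/-- the quotient order: functions on `X ⧸ Y` whose pull-back lies in `Hf`. -/
def quotOrder (Hf : Subalgebra (Zp p) (X → Qb)) : Subalgebra (Zp p) (X ⧸ Y → Qb) :=
  Hf.comap (pullAlg (R := Zp p) (QuotientAddGroup.mk : X → X ⧸ Y))

theorem mem_quotOrder {F : X ⧸ Y → Qb} :
    F ∈ quotOrder Y Hf ↔ (fun x : X => F (QuotientAddGroup.mk x)) ∈ Hf := Iff.rfl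

theorem descend_mem_quotOrder {g : X → Qb} (hgH : g ∈ Hf)
    (hg : ∀ x y : X, y ∈ Y → g (x + y) = g x) : descend Y g hg ∈ quotOrder Y Hf := by
  rw [mem_quotOrder]
  exact hgH

variable [Fintype Y]

/-- the `ℚ̄`-span of the quotient order is everything. -/
theorem span_quotOrder_eq_top (h : IsFunOrder p act Hf) (hY : ∀ σ, ∀ y ∈ Y, act σ y ∈ Y) :
    Submodule.span Qb ((quotOrder Y Hf : Set (X ⧸ Y → Qb))) = ⊤ := by
  rw [eq_top_iff]
  intro φ _
  have hψ : (fun x : X => φ (QuotientAddGroup.mk x)) ∈ Submodule.span Qb (Hf : Set (X → Qb)) := by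
    rw [span_eq_top h]
    trivial
  have key : ∀ ψ ∈ Submodule.span Qb (Hf : Set (X → Qb)),
      ∃ Φ ∈ Submodule.span Qb (quotOrder Y Hf : Set (X ⧸ Y → Qb)),
        ∀ x : X, Φ (QuotientAddGroup.mk x) = trY Y ψ x := by
    intro ψ hψ
    induction hψ using Submodule.span_induction with
    | mem f hf =>
      exact ⟨descend Y (trY Y f) (trY_add_mem Y f),
        Submodule.subset_span (descend_mem_quotOrder Y (trY_mem Y h hY hf) _), fun x => rfl⟩
    | zero => exact ⟨0, Submodule.zero_mem _, fun x => by simp [trY_apply]⟩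
    | add f g _ _ hf hg =>
      obtain ⟨Φ1, h1, e1⟩ := hf
      obtain ⟨Φ2, h2, e2⟩ := hg
      exact ⟨Φ1 + Φ2, Submodule.add_mem _ h1 h2, fun x => by
        simp [e1, e2, trY_apply, Finset.sum_add_distrib]⟩
    | smul c f _ hf =>
      obtain ⟨Φ1, h1, e1⟩ := hf
      exact ⟨c • Φ1, Submodule.smul_mem _ c h1, fun x => by
        simp [e1, trY_apply, Finset.mul_sum]⟩
  obtain ⟨Φ, hΦ, hΦe⟩ := key _ hψ
  have hcard : ((Fintype.card Y : ℕ) : Qb) ≠ 0 := Nat.cast_ne_zero.mpr Fintype.card_ne_zero
  have : φ = ((Fintype.card Y : ℕ) : Qb)⁻¹ • Φ := by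
    funext z
    induction z using QuotientAddGroup.induction_on with
    | H x =>
      rw [Pi.smul_apply, hΦe, trY_apply]
      have : ∀ y : Y, φ (QuotientAddGroup.mk (x + (y : X))) = φ (QuotientAddGroup.mk x) :=
        fun y => by rw [QuotientAddGroup.mk_add_of_mem x y.2]
      simp only [this, Finset.sum_const, Finset.card_univ, nsmul_eq_mul, smul_eq_mul]
      rw [← mul_assoc, inv_mul_cancel₀ hcard, one_mul]
  rw [this]
  exact Submodule.smul_mem _ _ hΦ


/-- the basis of the quotient order. -/
theorem quotOrder_basis (h : IsFunOrder p act Hf) (hY : ∀ σ, ∀ y ∈ Y, act σ y ∈ Y)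
    (actQ : Γℚ → X ⧸ Y → X ⧸ Y)
    (hQ : ∀ σ x, actQ σ (QuotientAddGroup.mk x) = QuotientAddGroup.mk (act σ x)) :
    ∃ (n : ℕ) (b : Module.Basis (Fin n) (Zp p) (quotOrder Y Hf)),
      LinearIndependent Qb (fun i => ((b i : quotOrder Y Hf) : X ⧸ Y → Qb)) ∧
        n = Nat.card (X ⧸ Y) := by
  obtain ⟨n0, b0, -, -⟩ := h.basis
  haveI : Module.Finite (Zp p) Hf := Module.Finite.of_basis b0
  haveI : IsNoetherian (Zp p) Hf := isNoetherian_of_isNoetherianRing_of_finite (Zp p) Hf
  let j : (quotOrder Y Hf) →ₗ[Zp p] Hf :=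
    { toFun := fun F => ⟨fun x => (F : X ⧸ Y → Qb) (QuotientAddGroup.mk x), F.2⟩
      map_add' := fun _ _ => rfl
      map_smul' := fun _ _ => rfl }
  have hj : Function.Injective j := by
    intro F G hFG
    apply Subtype.ext
    funext z
    induction z using QuotientAddGroup.induction_on with
    | H x => exact congrFun (congrArg Subtype.val hFG) x
  haveI : Module.Finite (Zp p) (quotOrder Y Hf) := Module.Finite.of_injective j hj
  haveI : Module.IsTorsionFree (Zp p) (quotOrder Y Hf) :=
    Module.IsTorsionFree.of_smul_eq_zero (fun r F hrF => by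
      by_cases hr : r = 0
      · exact Or.inl hr
      · right
        apply Subtype.ext
        funext z
        have h1 := congrFun (congrArg Subtype.val hrF) z
        have h2 : algebraMap (Zp p) Qb r * (F : X ⧸ Y → Qb) z = 0 := by
          simpa [Algebra.smul_def] using h1
        rcases mul_eq_zero.mp h2 with h3 | h3
        · exact absurd ((map_eq_zero_iff _ (RatLoc.algebraMap_injective p)).mp h3) hr
        · exact h3)
  haveI : Module.Free (Zp p) (quotOrder Y Hf) := Module.free_of_finite_type_torsion_free'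
  let b := Module.finBasis (Zp p) (quotOrder Y Hf)
  -- linear independence
  have hR : LinearIndependent (Zp p) (fun i => ((b i : quotOrder Y Hf) : X ⧸ Y → Qb)) :=
    b.linearIndependent.map' (quotOrder Y Hf).val.toLinearMap
      (LinearMap.ker_eq_bot.mpr Subtype.val_injective)
  have hQ' : LinearIndependent ℚ (fun i => ((b i : quotOrder Y Hf) : X ⧸ Y → Qb)) :=
    (LinearIndependent.iff_fractionRing (Zp p) ℚ).mp hR
  have hactQ : ∀ σ z, actQ σ (actQ σ⁻¹ z) = z := by
    intro σ z
    induction z using QuotientAddGroup.induction_on with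
    | H x => rw [hQ, hQ, act_act_inv h]
  have hequiv : ∀ (i : Fin (Module.finrank (Zp p) (quotOrder Y Hf))) (σ : Γℚ) (z : X ⧸ Y),
      ((b i : quotOrder Y Hf) : X ⧸ Y → Qb) (actQ σ z) =
        σ (((b i : quotOrder Y Hf) : X ⧸ Y → Qb) z) := by
    intro i σ z
    induction z using QuotientAddGroup.induction_on with
    | H x =>
      rw [hQ]
      exact h.equivariant _ (b i).2 σ x
  haveI : Algebra.IsAlgebraic ℚ Qb := AlgebraicClosure.isAlgebraic ℚ
  haveI : IsAlgClosure ℚ Qb := ⟨inferInstance, inferInstance⟩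
  haveI : Normal ℚ Qb := IsAlgClosure.normal ℚ Qb
  haveI : IsGalois ℚ Qb := ⟨⟩
  have hQb : LinearIndependent Qb (fun i => ((b i : quotOrder Y Hf) : X ⧸ Y → Qb)) :=
    GaloisIndep.linearIndependent_of_equivariant (K := ℚ) (Ω := Qb)
      (fun ω hω => (InfiniteGalois.mem_range_algebraMap_iff_fixed ω).mpr hω) actQ hactQ _
      hequiv hQ'
  refine ⟨_, b, hQb, ?_⟩
  -- the cardinality
  haveI : Finite (X ⧸ Y) := Quotient.finite _
  haveI := Fintype.ofFinite (X ⧸ Y)
  have h1 : Module.finrank (Zp p) (quotOrder Y Hf) ≤ Fintype.card (X ⧸ Y) := by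
    have := hQb.fintype_card_le_finrank
    rwa [Module.finrank_fintype_fun_eq_card, Fintype.card_fin] at this
  have h2 : Fintype.card (X ⧸ Y) ≤ Module.finrank (Zp p) (quotOrder Y Hf) := by
    have hspan : Submodule.span Qb
        (Set.range (fun i => ((b i : quotOrder Y Hf) : X ⧸ Y → Qb))) = ⊤ := by
      rw [eq_top_iff, ← span_quotOrder_eq_top Y h hY]
      rw [Submodule.span_le]
      intro F hF
      have h3 : (⟨F, hF⟩ : quotOrder Y Hf) = ∑ i, b.repr ⟨F, hF⟩ i • b i := (b.sum_repr _).symm
      have h4 : F = ∑ i, algebraMap (Zp p) Qb (b.repr ⟨F, hF⟩ i) •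
          ((b i : quotOrder Y Hf) : X ⧸ Y → Qb) := by
        refine (congrArg Subtype.val h3).trans ?_
        rw [AddSubmonoidClass.coe_finsetSum]
        refine Finset.sum_congr rfl fun i _ => ?_
        funext z
        simp [Algebra.smul_def]
      rw [h4]
      exact Submodule.sum_mem _ fun i _ => Submodule.smul_mem _ _ (Submodule.subset_span ⟨i, rfl⟩)
    have h5 := finrank_range_le_card (R := Qb)
      (fun i => ((b i : quotOrder Y Hf) : X ⧸ Y → Qb))
    rw [Set.finrank, hspan, finrank_top, Module.finrank_fintype_fun_eq_card,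
      Fintype.card_fin] at h5
    exact h5
  rw [Nat.card_eq_fintype_card]
  omega


/-- the quotient order is closed under comultiplication. -/
theorem quotOrder_comul (h : IsFunOrder p act Hf) (hY : ∀ σ, ∀ y ∈ Y, act σ y ∈ Y)
    {F : X ⧸ Y → Qb} (hF : F ∈ quotOrder Y Hf) :
    (fun st : (X ⧸ Y) × (X ⧸ Y) => F (st.1 + st.2)) ∈ Submodule.span (Zp p)
      {G : (X ⧸ Y) × (X ⧸ Y) → Qb | ∃ g ∈ quotOrder Y Hf, ∃ k ∈ quotOrder Y Hf,
        G = fun st => g st.1 * k st.2} := by
  obtain ⟨n, b, hli, hn⟩ := h.basis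
  haveI : Module.Finite (Zp p) Hf := Module.Finite.of_basis b
  let D : Datum Hf.val (Fin n) :=
    Datum.ofSubalgebra Hf b hli (RatLoc.algebraMap_injective p) h.comul h.counit h.antipode
  let f : Hf := ⟨fun x => F (QuotientAddGroup.mk x), hF⟩
  let z : Hf ⊗[Zp p] Hf := D.comulAlg f
  have hz : ∀ s t : X, extProd Hf.val Hf.val z (s, t) = F (QuotientAddGroup.mk (s + t)) :=
    fun s t => D.extProd_comulAlg f s t
  -- the trace as a linear endomorphism
  let T : Hf →ₗ[Zp p] Hf :=
    { toFun := fun g => ⟨trY Y g, trY_mem Y h hY g.2⟩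
      map_add' := fun g k => by
        apply Subtype.ext
        funext x
        simp [trY_apply, Finset.sum_add_distrib]
      map_smul' := fun r g => by
        apply Subtype.ext
        funext x
        simp [trY_apply, Finset.smul_sum] }
  -- the invariants
  let A : Submodule (Zp p) Hf :=
    { carrier := {g | ∀ x y : X, y ∈ Y → (g : X → Qb) (x + y) = (g : X → Qb) x}
      add_mem' := fun {g k} hg hk x y hy => by
        show (g : X → Qb) (x + y) + (k : X → Qb) (x + y) = (g : X → Qb) x + (k : X → Qb) x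
        rw [hg x y hy, hk x y hy]
      zero_mem' := fun x y _ => rfl
      smul_mem' := fun r g hg x y hy => by
        show (r • (g : X → Qb)) (x + y) = (r • (g : X → Qb)) x
        rw [Pi.smul_apply, Pi.smul_apply, hg x y hy] }
  have hsat : ∀ (r : Zp p) (g : Hf), r ≠ 0 → r • g ∈ A → g ∈ A := by
    intro r g hr hg x y hy
    have h1 : (r • (g : X → Qb)) (x + y) = (r • (g : X → Qb)) x := hg x y hy
    rw [Pi.smul_apply, Pi.smul_apply, Algebra.smul_def, Algebra.smul_def] at h1
    exact mul_left_cancel₀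
      ((map_ne_zero_iff _ (RatLoc.algebraMap_injective p)).mpr hr) h1
  obtain ⟨π, hπA, hπid⟩ := exists_proj A hsat
  have hTA : ∀ g : Hf, T g ∈ A := fun g x y hy => trY_add_mem Y g x y hy
  have hπT : π ∘ₗ T = T := LinearMap.ext fun g => hπid _ (hTA g)
  -- (a)
  have ha : ∀ (w : Hf ⊗[Zp p] Hf) (s t : X),
      extProd Hf.val Hf.val (TensorProduct.map T T w) (s, t) =
        ∑ y : Y, ∑ y' : Y, extProd Hf.val Hf.val w (s + y, t + y') := by
    intro w
    induction w using TensorProduct.induction_on with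
    | zero => intro s t; simp
    | tmul g k =>
      intro s t
      simp only [TensorProduct.map_tmul, extProd_tmul]
      show trY Y g s * trY Y k t = _
      rw [trY_apply, trY_apply, Finset.sum_mul_sum]
      rfl
    | add w w' hw hw' =>
      intro s t
      simp only [map_add, Pi.add_apply, hw, hw', Finset.sum_add_distrib]
  -- (b)
  have hb : TensorProduct.map T T z = (Fintype.card Y * Fintype.card Y) • z := by
    apply D.inj₂
    funext st
    obtain ⟨s, t⟩ := st
    rw [ha, map_nsmul]
    have : ∀ y y' : Y, extProd Hf.val Hf.val z (s + (y : X), t + (y' : X)) =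
        extProd Hf.val Hf.val z (s, t) := by
      intro y y'
      rw [hz, hz]
      congr 1
      have : s + (y : X) + (t + (y' : X)) = (s + t) + ((y : X) + (y' : X)) := by abel
      rw [this]
      exact QuotientAddGroup.mk_add_of_mem (s + t) (Y.add_mem y.2 y'.2)
    simp only [this, Finset.sum_const, Finset.card_univ, smul_smul, Pi.smul_apply]
  -- (c)
  have hc : TensorProduct.map π π z = z := by
    have h1 : TensorProduct.map π π (TensorProduct.map T T z) = TensorProduct.map T T z := by
      rw [← LinearMap.comp_apply, ← TensorProduct.map_comp, hπT]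
    rw [hb, map_nsmul] at h1
    apply D.inj₂
    have h2 := congrArg (extProd Hf.val Hf.val) h1
    rw [map_nsmul, map_nsmul] at h2
    have hne : Fintype.card Y * Fintype.card Y ≠ 0 :=
      Nat.mul_ne_zero Fintype.card_ne_zero Fintype.card_ne_zero
    exact smul_right_injective _ hne h2
  -- (e)
  have he : ∀ w : Hf ⊗[Zp p] Hf, ∃ Ψ ∈ Submodule.span (Zp p)
      {G : (X ⧸ Y) × (X ⧸ Y) → Qb | ∃ g ∈ quotOrder Y Hf, ∃ k ∈ quotOrder Y Hf,
        G = fun st => g st.1 * k st.2},
      ∀ s t : X, Ψ (QuotientAddGroup.mk s, QuotientAddGroup.mk t) =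
        extProd Hf.val Hf.val (TensorProduct.map π π w) (s, t) := by
    intro w
    induction w using TensorProduct.induction_on with
    | zero => exact ⟨0, Submodule.zero_mem _, fun s t => by simp⟩
    | tmul g k =>
      refine ⟨fun st => descend Y (π g) (hπA g) st.1 * descend Y (π k) (hπA k) st.2,
        Submodule.subset_span ⟨_, descend_mem_quotOrder Y (π g).2 _, _,
          descend_mem_quotOrder Y (π k).2 _, rfl⟩, fun s t => ?_⟩
      simp only [TensorProduct.map_tmul, extProd_tmul, descend_mk]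
      rfl
    | add w w' hw hw' =>
      obtain ⟨Ψ1, h1, e1⟩ := hw
      obtain ⟨Ψ2, h2, e2⟩ := hw'
      exact ⟨Ψ1 + Ψ2, Submodule.add_mem _ h1 h2, fun s t => by
        simp only [Pi.add_apply, e1, e2, map_add]⟩
  obtain ⟨Ψ, hΨ, hΨe⟩ := he z
  have : (fun st : (X ⧸ Y) × (X ⧸ Y) => F (st.1 + st.2)) = Ψ := by
    funext st
    obtain ⟨s', t'⟩ := st
    induction s' using QuotientAddGroup.induction_on with
    | H s =>
      induction t' using QuotientAddGroup.induction_on with
      | H t =>
        rw [hΨe, hc, hz]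
        rfl
  rw [this]
  exact hΨ

/-- **the quotient of a function-level order by a Galois-stable subgroup.** -/
theorem isFunOrder_quotient (h : IsFunOrder p act Hf) (hY : ∀ σ, ∀ y ∈ Y, act σ y ∈ Y)
    (actQ : Γℚ → X ⧸ Y → X ⧸ Y)
    (hQ : ∀ σ x, actQ σ (QuotientAddGroup.mk x) = QuotientAddGroup.mk (act σ x)) :
    IsFunOrder p actQ (quotOrder Y Hf) where
  basis := quotOrder_basis Y h hY actQ hQ
  comul := fun F hF => quotOrder_comul Y h hY hF
  counit := fun F hF => h.counit _ hF
  antipode := fun F hF => by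
    rw [mem_quotOrder]
    exact h.antipode _ hF
  equivariant := fun F hF σ z => by
    induction z using QuotientAddGroup.induction_on with
    | H x =>
      rw [hQ]
      exact h.equivariant _ hF σ x

end Quot

/-- **`IsFFPoints.of_quotient`**: the quotient of the points of a finite flat group scheme over
`ℤ_(p)` by a Galois-stable subgroup is again the group of points of a finite flat group scheme. -/
theorem of_quotient {p : ℕ} {X : Type} [AddCommGroup X] {act : Γℚ → X → X}
    (h : IsFFPoints p X act) (Y : AddSubgroup X) (hY : ∀ σ, ∀ y ∈ Y, act σ y ∈ Y)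
    (actQ : Γℚ → X ⧸ Y → X ⧸ Y)
    (hQ : ∀ σ x, actQ σ (QuotientAddGroup.mk x) = QuotientAddGroup.mk (act σ x)) :
    IsFFPoints p (X ⧸ Y) actQ := by
  obtain ⟨hfin, Hf, hHf⟩ := exists_isFunOrder h
  haveI := hfin
  haveI := Fintype.ofFinite Y
  haveI : Finite (X ⧸ Y) := Quotient.finite _
  exact (isFunOrder_quotient Y hHf hY actQ hQ).isFFPoints

end Fermat.Agent.S19x.FF.QuotientFun
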